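import Fermat.Agent.CubicFormCount.Cusp
import Fermat.Agent.DeloneFaddeev.Classify

/-!
# Classes and reduced forms

A class under `GL₂ (ℤ)` with a representative over the open half fundamental domain has exactly two
reduced representatives, `±f`; every class has at least two over the closed one.
-/

set_option autoImplicit false

noncomputable section

open FA.Thue FA.DeloneFaddeev
open scoped Classical

namespace FA.CubicFormCount

/-- The class of a form. -/
def classSet (f : CubicForm) : Set CubicForm := {g | Twisted f g}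

/-- The classes of forms without rational zero in `Q` with `0 < ± disc ≤ X`. -/
def classes (ε : Bool) (Q : Set CubicForm) (X : ℝ) : Set (Set CubicForm) :=
  {c | ∃ f ∈ Q, f.Anisotropic ∧ 0 < sgn ε * f.disc ∧ sgn ε * f.disc ≤ X ∧ c = classSet f}

/-- The reduced forms. -/
def redSet (ε : Bool) (Q : Set CubicForm) (T : ℝ) : Set CubicForm :=
  {f | f ∈ Q ∧ f.Anisotropic ∧ ∃ t, IsRed ε T f t}

/-- The reduced forms over the open half fundamental domain. -/
def redSetO (ε : Bool) (Q : Set CubicForm) (T : ℝ) : Set CubicForm :=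
  {f | f ∈ Q ∧ f.Anisotropic ∧
    ∃ t, IsRed ε T f t ∧ t 2 ∈ Set.Ioo 0 (1 / 2) ∧ 1 < t 2 ^ 2 + t 3 ^ 2}

theorem twisted_refl (f : CubicForm) : Twisted f f :=
  ⟨1, by simp, by rw [Matrix.det_one, actMat_one, scale_one]⟩

theorem twisted_trans {f g h : CubicForm} (h1 : Twisted f g) (h2 : Twisted g h) :
    Twisted f h := by
  obtain ⟨M, hM, rfl⟩ := h1
  obtain ⟨N, hN, rfl⟩ := h2
  refine ⟨M * N, by rw [Matrix.det_mul]; exact hM.mul hN, ?_⟩
  rw [actMat_scale, scale_scale, actMat_mul, Matrix.det_mul, mul_comm N.det]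

theorem twisted_symm {f g : CubicForm} (h : Twisted f g) : Twisted g f := by
  obtain ⟨M, hM, rfl⟩ := h
  have hu := isUnit_mul_self hM
  refine ⟨M.det • M.adjugate, ?_, ?_⟩
  · rw [Matrix.det_smul, Matrix.det_adjugate]
    simpa using hM.pow 3
  · rw [actMat_scale, scale_scale, actMat_mul, Matrix.mul_smul, Matrix.mul_adjugate, smul_smul, hu,
      one_smul, actMat_one, Matrix.det_smul, Matrix.det_adjugate]
    simp [pow_two, hu, scale_one]

theorem classSet_eq {f g : CubicForm} (h : Twisted f g) : classSet f = classSet g :=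
  Set.ext fun _ => ⟨fun h' => twisted_trans (twisted_symm h) h', twisted_trans h⟩

theorem twisted_of_classSet {f g : CubicForm} (h : classSet f = classSet g) : Twisted f g := by
  have : g ∈ classSet g := twisted_refl g
  rwa [← h] at this

theorem twisted_disc {f g : CubicForm} (h : Twisted f g) : g.disc = f.disc := by
  obtain ⟨M, hM, rfl⟩ := h
  have hs : ∀ (k : ℤ) (F : CubicForm), (scale k F).disc = k ^ 4 * F.disc := by
    intro k F; simp only [scale, CubicForm.disc]; ring
  rw [hs, actMat, CubicForm.disc_act, ← Matrix.det_fin_two, ← mul_assoc]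
  rcases Int.isUnit_iff.mp hM with h | h <;> rw [h] <;> norm_num

theorem twisted_anisotropic {f g : CubicForm} (h : Twisted f g) (hf : f.Anisotropic) :
    g.Anisotropic := by
  obtain ⟨M, hM, rfl⟩ := h
  intro X Y h0
  have hs : (scale M.det (actMat f M)).eval X Y = M.det * (actMat f M).eval X Y := by
    simp only [scale, CubicForm.eval, Int.cast_id]; ring
  rw [hs, mul_eq_zero] at h0
  have h1 := h0.resolve_left hM.ne_zero
  rw [actMat, CubicForm.eval_act] at h1
  obtain ⟨e1, e2⟩ := hf _ _ h1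
  simp only [Int.cast_id] at e1 e2
  have hd : M.det * M.det = 1 := isUnit_mul_self hM
  rw [Matrix.det_fin_two] at hd
  constructor
  · linear_combination (M 1 1 * e1 - M 0 1 * e2) * (M 0 0 * M 1 1 - M 0 1 * M 1 0) - X * hd
  · linear_combination (M 0 0 * e2 - M 1 0 * e1) * (M 0 0 * M 1 1 - M 0 1 * M 1 0) - Y * hd

theorem twisted_neg (f : CubicForm) : Twisted f (scale (-1) f) :=
  ⟨-1, by rw [Matrix.det_neg]; simp, by
    rw [Matrix.det_neg, Matrix.det_one]
    ext <;> simp [scale, actMat, CubicForm.act, CubicForm.eval, pow_succ]⟩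

theorem toVec_injective : Function.Injective toVec := fun f g h => by
  have q0 := congrFun h 0
  have q1 := congrFun h 1
  have q2 := congrFun h 2
  have q3 := congrFun h 3
  simp [toVec] at q0 q1 q2 q3
  ext <;> assumption

theorem sgn_disc_eq {ε : Bool} {f : CubicForm} {t : Fin 4 → ℝ} (h : toVec f = par ε t) :
    sgn ε * f.disc = kst ε * (t 0 ^ 2 + t 1 ^ 2) ^ 2 * t 3 ^ 6 := by
  rw [← rdisc_toVec, h, rdisc_par]
  cases ε <;> simp [sgn]

theorem toVec_scale_neg {ε : Bool} {f : CubicForm} {t : Fin 4 → ℝ} (h : toVec f = par ε t) :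
    toVec (scale (-1) f) = par ε ![-t 0, -t 1, t 2, t 3] := by
  have e := par_scale ε (-1) t
  simp only [neg_one_mul] at e
  rw [e, ← h]
  funext i
  fin_cases i <;> simp [toVec, scale]

/-- The mirror image of a form. -/
def mirror (f : CubicForm) : CubicForm := scale (-1) (f.act 1 0 0 (-1))

theorem twisted_mirror (f : CubicForm) : Twisted f (mirror f) := by
  refine ⟨!![1, 0; 0, -1], by simp [Matrix.det_fin_two], ?_⟩
  simp [mirror, actMat, Matrix.det_fin_two]

theorem toVec_mirror {ε : Bool} {f : CubicForm} {t : Fin 4 → ℝ} (h : toVec f = par ε t) :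
    toVec (mirror f) = par ε ![-t 0, t 1, -t 2, t 3] := by
  have e : toVec (f.act 1 0 0 (-1)) = par ε ![t 0, -t 1, -t 2, t 3] := by
    refine rev_ext fun X Y => ?_
    rw [rev_toVec, CubicForm.eval_act, ← rev_toVec, h]
    cases ε <;> simp [rev, par] <;> ring
  simpa [mirror] using toVec_scale_neg e

/-- A proper transform moves `z` by the transposed matrix. -/
theorem toVec_act {ε : Bool} {f : CubicForm} {t : Fin 4 → ℝ} (h : toVec f = par ε t)
    (hy : 0 < t 3) (hw : t 0 ≠ 0 ∨ t 1 ≠ 0) {p q r s : ℤ} (hd : p * s - q * r = 1) :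
    ∃ t' : Fin 4 → ℝ, toVec (f.act p q r s) = par ε t' ∧ 0 < t' 3 ∧ (t' 0 ≠ 0 ∨ t' 1 ≠ 0) ∧
      (⟨t' 2, t' 3⟩ : ℂ) = ((q : ℂ) + s * ⟨t 2, t 3⟩) / ((p : ℂ) + r * ⟨t 2, t 3⟩) := by
  set z : ℂ := ⟨t 2, t 3⟩
  set w : ℂ := ⟨t 0, t 1⟩
  have hj : (p : ℂ) + r * z ≠ 0 := by
    intro h0
    have him := congrArg Complex.im h0
    simp [z, hy.ne'] at him
    rw [him] at h0
    simp at h0
    rw [him, h0] at hd
    simp at hd
  set j : ℂ := (p : ℂ) + r * z
  set z' : ℂ := ((q : ℂ) + s * z) / j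
  set w' : ℂ := if ε then w * j ^ 3 else w * j * Complex.normSq j
  have hz' : 0 < z'.im := by
    have e : z'.im = t 3 / Complex.normSq j := by
      simp only [z', Complex.div_im, ← sub_div]
      congr 1
      have hd' : (p : ℝ) * s - q * r = 1 := by exact_mod_cast hd
      simp [j, z]
      linear_combination t 3 * hd'
    rw [e]
    exact div_pos hy (Complex.normSq_pos.mpr hj)
  have hw' : w' ≠ 0 := by
    have hw0 : w ≠ 0 := fun hh => hw.elim (fun h1 => h1 (by simpa using congrArg Complex.re hh))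
      fun h1 => h1 (by simpa using congrArg Complex.im hh)
    cases ε <;> simp [w', hj, hw0]
  refine ⟨![w'.re, w'.im, z'.re, z'.im], ?_, by simpa using hz', ?_, by simp [z', j]⟩
  · refine rev_ext fun X Y => ?_
    have hb := rev_cub_comp ε w z (p := (p : ℝ)) (q := (q : ℝ)) (r := (r : ℝ)) (s := (s : ℝ))
      (by simpa [j] using hj) X Y
    simp only [Complex.ofReal_intCast] at hb
    have e : cub ε w z = par ε t := by
      rw [cub]; congr 1; funext i; fin_cases i <;> simp [w, z]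
    rw [rev_toVec, CubicForm.eval_act, ← rev_toVec, h, ← e]
    exact hb
  · by_contra hc
    simp at hc
    exact hw' (Complex.ext hc.1 hc.2)

/-- The point of `ℍ` of parameters. -/
def pointOf (t : Fin 4 → ℝ) (h : 0 < t 3) : UpperHalfPlane := ⟨⟨t 2, t 3⟩, h⟩

theorem smul_pointOf {t t' : Fin 4 → ℝ} (hy : 0 < t 3) (hy' : 0 < t' 3)
    {g : Matrix.SpecialLinearGroup (Fin 2) ℤ}
    (h : (⟨t' 2, t' 3⟩ : ℂ) = ((g 0 1 : ℂ) + g 0 0 * ⟨t 2, t 3⟩) /
      ((g 1 1 : ℂ) + g 1 0 * ⟨t 2, t 3⟩)) :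
    g • pointOf t hy = pointOf t' hy' := by
  ext
  rw [UpperHalfPlane.coe_specialLinearGroup_apply]
  show _ = (⟨t' 2, t' 3⟩ : ℂ)
  rw [h]
  simp [pointOf, add_comm]

theorem mem_fd {t : Fin 4 → ℝ} (hy : 0 < t 3) (hx : |t 2| ≤ 1 / 2)
    (hn : 1 ≤ t 2 ^ 2 + t 3 ^ 2) : pointOf t hy ∈ ModularGroup.fd :=
  ⟨by simpa [pointOf, Complex.normSq_apply, sq] using hn, hx⟩

theorem mem_fdo {t : Fin 4 → ℝ} (hy : 0 < t 3) (hx : |t 2| < 1 / 2)
    (hn : 1 < t 2 ^ 2 + t 3 ^ 2) : pointOf t hy ∈ ModularGroup.fdo :=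
  ⟨by simpa [pointOf, Complex.normSq_apply, sq] using hn, hx⟩

/-- Every class has a reduced member. -/
theorem exists_reduced {ε : Bool} {T : ℝ} {f : CubicForm} (hf : f.Anisotropic)
    (hD : 0 < sgn ε * f.disc) (hT : sgn ε * f.disc ≤ T ^ 4) :
    ∃ g, Twisted f g ∧ ∃ t, IsRed ε T g t := by
  obtain ⟨t, hy, ht⟩ := exists_par hf ε hD
  have hw : t 0 ≠ 0 ∨ t 1 ≠ 0 := by
    by_contra h
    push Not at h
    rw [sgn_disc_eq ht, h.1, h.2] at hD
    simp at hD
  obtain ⟨g, hg⟩ := ModularGroup.exists_smul_mem_fd (pointOf t hy)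
  have hdet : g 1 1 * g 0 0 - g 0 1 * g 1 0 = 1 := by
    have := g.2
    rw [Matrix.det_fin_two] at this
    linear_combination this
  obtain ⟨t', h1, h2, h3, h4⟩ := toVec_act ht hy hw hdet
  rw [smul_pointOf hy h2 h4] at hg
  obtain ⟨hn, hx⟩ := hg
  have hn' : 1 ≤ t' 2 ^ 2 + t' 3 ^ 2 := by
    simpa [pointOf, Complex.normSq_apply, sq] using hn
  have htw : Twisted f (f.act (g 1 1) (g 0 1) (g 1 0) (g 0 0)) := by
    refine ⟨!![g 1 1, g 0 1; g 1 0, g 0 0], by simp [Matrix.det_fin_two, hdet], ?_⟩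
    simp [actMat, Matrix.det_fin_two, hdet, scale_one]
  have hbd : kst ε * (t' 0 ^ 2 + t' 1 ^ 2) ^ 2 * t' 3 ^ 6 ≤ T ^ 4 := by
    rw [← sgn_disc_eq h1, twisted_disc htw]; exact hT
  have hx' := abs_le.mp (show |t' 2| ≤ 1 / 2 from hx)
  rcases le_total 0 (t' 2) with hx0 | hx0
  · exact ⟨_, htw, t', h1, h3, h2, ⟨hx0, hx'.2⟩, hn', hbd⟩
  · refine ⟨_, twisted_trans htw (twisted_mirror _), _, toVec_mirror h1, ?_, ?_, ?_, ?_, ?_⟩
    · simpa using h3
    · simpa using h2
    · simp only [Matrix.cons_val, Set.mem_Icc]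
      constructor <;> linarith
    · simpa using hn'
    · simpa using hbd

/-- Proper equivalence fixes an open reduced form up to sign. -/
theorem proper_unique {ε : Bool} {f : CubicForm} {t t' : Fin 4 → ℝ} (h : toVec f = par ε t)
    (hy : 0 < t 3) (hw : t 0 ≠ 0 ∨ t 1 ≠ 0) (hx : |t 2| < 1 / 2)
    (hn : 1 < t 2 ^ 2 + t 3 ^ 2) {p q r s : ℤ} (hd : p * s - q * r = 1)
    (h' : toVec (f.act p q r s) = par ε t') (hy' : 0 < t' 3) (hx' : |t' 2| ≤ 1 / 2)
    (hn' : 1 ≤ t' 2 ^ 2 + t' 3 ^ 2) :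
    t' 2 = t 2 ∧ (f.act p q r s = f ∨ f.act p q r s = scale (-1) f) := by
  obtain ⟨u, h1, h2, h3, h4⟩ := toVec_act h hy hw hd
  have hu : u = t' := par_injOn ε h2 hy' h3 (h1.symm.trans h')
  subst hu
  let g : Matrix.SpecialLinearGroup (Fin 2) ℤ :=
    ⟨!![s, q; r, p], by rw [Matrix.det_fin_two_of]; linear_combination hd⟩
  have hsm : g • pointOf t hy = pointOf u hy' :=
    smul_pointOf hy hy' (by simpa [g] using h4)
  rcases ModularGroup.eq_one_or_neg_one_of_mem_fdo_mem_fd (mem_fdo hy hx hn)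
    (hsm ▸ mem_fd hy' hx' hn' : g • pointOf t hy ∈ ModularGroup.fd) with hg | hg
  all_goals
    have e00 := congrArg (fun m : Matrix.SpecialLinearGroup (Fin 2) ℤ => m 0 0) hg
    have e01 := congrArg (fun m : Matrix.SpecialLinearGroup (Fin 2) ℤ => m 0 1) hg
    have e10 := congrArg (fun m : Matrix.SpecialLinearGroup (Fin 2) ℤ => m 1 0) hg
    have e11 := congrArg (fun m : Matrix.SpecialLinearGroup (Fin 2) ℤ => m 1 1) hg
    simp [g] at e00 e01 e10 e11
    subst e00 e01 e10 e11
    refine ⟨?_, ?_⟩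
    · have := congrArg Complex.re h4
      simpa using this
  · left; ext <;> simp [CubicForm.act, CubicForm.eval]
  · right; ext <;> simp [CubicForm.act, CubicForm.eval, scale, pow_succ]

/-- A class meeting the open domain has only two reduced members. -/
theorem reduced_unique {ε : Bool} {T T' : ℝ} {f g : CubicForm} {t t' : Fin 4 → ℝ}
    (h : IsRed ε T f t) (hx : t 2 ∈ Set.Ioo 0 (1 / 2)) (hn : 1 < t 2 ^ 2 + t 3 ^ 2)
    (h' : IsRed ε T' g t') (htw : Twisted f g) : g = f ∨ g = scale (-1) f := by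
  obtain ⟨e, hw, hy, -, -, -⟩ := h
  obtain ⟨e', -, hy', ⟨x0, x1⟩, hn', -⟩ := h'
  obtain ⟨M, hM, hg⟩ := htw
  have habs : |t 2| < 1 / 2 := abs_lt.mpr ⟨by linarith [hx.1], hx.2⟩
  rcases Int.isUnit_iff.mp hM with hd | hd
  · rw [hd, scale_one, actMat] at hg
    rw [hg] at e' ⊢
    rw [Matrix.det_fin_two] at hd
    exact (proper_unique e hy hw habs hn hd e' hy' (abs_le.mpr ⟨by linarith, x1⟩) hn').2
  · exfalso
    rw [hd] at hg
    rw [Matrix.det_fin_two] at hd
    have hm : mirror g = f.act (M 0 0) (-M 0 1) (M 1 0) (-M 1 1) := by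
      rw [hg]
      ext <;> simp [mirror, scale, actMat, CubicForm.act, CubicForm.eval] <;> ring
    have e'' := toVec_mirror e'
    rw [hm] at e''
    obtain ⟨k, -⟩ := proper_unique e hy hw habs hn
      (p := M 0 0) (q := -M 0 1) (r := M 1 0) (s := -M 1 1) (by linear_combination -hd) e''
      (by simpa using hy') (by simpa using abs_le.mpr ⟨by linarith, x1⟩) (by simpa using hn')
    simp at k
    linarith [hx.1]

theorem scale_neg_ne {f : CubicForm} (hf : f.Anisotropic) : scale (-1) f ≠ f := fun h => by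
  have := congrArg CubicForm.a h
  simp [scale] at this
  have := hf.a_ne_zero
  omega

theorem scale_neg_mem {ε : Bool} {Q : Set CubicForm} (hQ : ∀ f g, Twisted f g → f ∈ Q → g ∈ Q)
    {T : ℝ} {f : CubicForm} (hf : f ∈ redSet ε Q T) : scale (-1) f ∈ redSet ε Q T := by
  obtain ⟨hq, ha, t, he, hw, hy, hx, hn, hd⟩ := hf
  refine ⟨hQ _ _ (twisted_neg f) hq, twisted_anisotropic (twisted_neg f) ha, _,
    toVec_scale_neg he, ?_⟩
  simp only [Matrix.cons_val_zero, Matrix.cons_val_one, Matrix.cons_val, ne_eq, neg_eq_zero,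
    neg_sq]
  exact ⟨hw, hy, hx, hn, hd⟩

/-- **The sandwich.** -/
theorem classes_sandwich (ε : Bool) {Q : Set CubicForm}
    (hQ : ∀ f g, Twisted f g → f ∈ Q → g ∈ Q) {T : ℝ} (hfin : (redSet ε Q T).Finite) :
    (classes ε Q (T ^ 4)).Finite ∧ (redSetO ε Q T).ncard ≤ 2 * (classes ε Q (T ^ 4)).ncard ∧
      2 * (classes ε Q (T ^ 4)).ncard ≤ (redSet ε Q T).ncard := by
  set R := hfin.toFinset
  have hsub : redSetO ε Q T ⊆ redSet ε Q T := fun f ⟨h1, h2, t, h3, _⟩ => ⟨h1, h2, t, h3⟩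
  have hO := hfin.subset hsub
  set RO := hO.toFinset
  have himg : classes ε Q (T ^ 4) = ((R.image classSet : Finset _) : Set (Set CubicForm)) := by
    ext c
    simp only [Finset.coe_image, Set.mem_image, R, Set.Finite.coe_toFinset]
    constructor
    · rintro ⟨f, hq, ha, h0, h1, rfl⟩
      obtain ⟨g, htw, t, ht⟩ := exists_reduced ha h0 h1
      exact ⟨g, ⟨hQ _ _ htw hq, twisted_anisotropic htw ha, t, ht⟩, (classSet_eq htw).symm⟩
    · rintro ⟨f, ⟨hq, ha, t, he, hw, hy, -, -, hd⟩, rfl⟩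
      refine ⟨f, hq, ha, ?_, ?_, rfl⟩
      · rw [sgn_disc_eq he]
        have := kst_pos ε
        have : 0 < t 0 ^ 2 + t 1 ^ 2 := by rcases hw with h | h <;> positivity
        positivity
      · rw [sgn_disc_eq he]; exact hd
  rw [himg, Set.ncard_coe_finset]
  refine ⟨Finset.finite_toSet _, ?_, ?_⟩
  · rw [Set.ncard_eq_toFinset_card _ hO]
    calc RO.card ≤ 2 * (RO.image classSet).card := by
          refine Finset.card_le_mul_card_image _ 2 fun c hc => ?_
          obtain ⟨f, hf, rfl⟩ := Finset.mem_image.mp hc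
          obtain ⟨-, -, t, ht, hx, hn⟩ := hO.mem_toFinset.mp hf
          refine (Finset.card_le_card (t := {f, scale (-1) f}) fun g hg => ?_).trans
            Finset.card_le_two
          rw [Finset.mem_filter] at hg
          obtain ⟨-, -, t', ht', -⟩ := hO.mem_toFinset.mp hg.1
          have := reduced_unique ht hx hn ht' (twisted_of_classSet hg.2.symm)
          simpa using this
      _ ≤ _ := Nat.mul_le_mul_left 2 (Finset.card_le_card (Finset.image_subset_image
          (Set.Finite.toFinset_subset_toFinset.mpr hsub)))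
  · rw [Set.ncard_eq_toFinset_card _ hfin]
    refine Finset.mul_card_image_le_card R 2 fun c hc => ?_
    obtain ⟨f, hf, rfl⟩ := Finset.mem_image.mp hc
    have hf' := hfin.mem_toFinset.mp hf
    have hne := scale_neg_ne hf'.2.1
    rw [← Finset.card_pair hne]
    refine Finset.card_le_card fun g hg => Finset.mem_filter.mpr ?_
    rcases Finset.mem_insert.mp hg with rfl | hg
    · exact ⟨hfin.mem_toFinset.mpr (scale_neg_mem hQ hf'), (classSet_eq (twisted_neg f)).symm⟩
    · rw [Finset.mem_singleton] at hg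
      subst hg
      exact ⟨hf, rfl⟩

end FA.CubicFormCount
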