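import Fermat.Agent.CubicFormCount.Param
import Mathlib.NumberTheory.ArithmeticFunction.Misc
import Mathlib.NumberTheory.Harmonic.Bounds
import Mathlib.RingTheory.Int.Basic

/-!
# Forms with a rational zero

A form in a box of side `N` with `a ≠ 0` and a rational zero is fixed by `a, b, d` and two
divisors, so there are `O (N ^ 3 √N)` of them.
-/

set_option autoImplicit false

noncomputable section

open FA.Thue Finset Filter
open scoped Topology Classical

namespace FA.CubicFormCount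

theorem sum_biUnion_le {α β : Type*} [DecidableEq β] (s : Finset α) (t : α → Finset β) {g : β → ℝ}
    (hg : ∀ x, 0 ≤ g x) : ∑ x ∈ s.biUnion t, g x ≤ ∑ k ∈ s, ∑ x ∈ t k, g x := by
  induction s using Finset.induction_on with
  | empty => simp
  | insert a s ha ih =>
    rw [Finset.biUnion_insert, Finset.sum_insert ha]
    have h := Finset.sum_union_inter (s₁ := t a) (s₂ := s.biUnion t) (f := g)
    have h' : 0 ≤ ∑ x ∈ t a ∩ s.biUnion t, g x := Finset.sum_nonneg fun x _ => hg x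
    linarith

/-- The divisors of an integer, both signs. -/
def sdiv (n : ℤ) : Finset ℤ :=
  n.natAbs.divisors.biUnion fun k => {(k : ℤ), -(k : ℤ)}

theorem mem_sdiv {n x : ℤ} (hn : n ≠ 0) (h : x ∣ n) : x ∈ sdiv n := by
  simp only [sdiv, Finset.mem_biUnion, Finset.mem_insert, Finset.mem_singleton]
  exact ⟨x.natAbs, Nat.mem_divisors.mpr ⟨Int.natAbs_dvd_natAbs.mpr h, by omega⟩,
    Int.natAbs_eq x⟩

theorem card_sdiv_le (n : ℤ) : (sdiv n).card ≤ 2 * n.natAbs.divisors.card := by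
  refine Finset.card_biUnion_le.trans ?_
  rw [mul_comm, ← smul_eq_mul, ← Finset.sum_const]
  exact Finset.sum_le_sum fun k _ => Finset.card_le_two

theorem sum_card_sdiv_le (N : ℕ) :
    (∑ a ∈ Finset.Icc (-(N : ℤ)) N, ((sdiv a).card : ℝ)) ≤ 4 * N * (1 + Real.log N) := by
  have hT : ((∑ k ∈ Finset.Ioc 0 N, k.divisors.card : ℕ) : ℝ) ≤ N * (1 + Real.log N) := by
    have e : ∑ k ∈ Finset.Ioc 0 N, k.divisors.card = ∑ d ∈ Finset.Ioc 0 N, N / d := by
      rw [← ArithmeticFunction.sum_Ioc_sigma0_eq_sum_div]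
      exact Finset.sum_congr rfl fun k _ => (ArithmeticFunction.sigma_zero_apply k).symm
    rw [e, Nat.cast_sum]
    calc ∑ d ∈ Finset.Ioc 0 N, ((N / d : ℕ) : ℝ) ≤ ∑ d ∈ Finset.Ioc 0 N, (N : ℝ) * (d : ℝ)⁻¹ :=
          Finset.sum_le_sum fun d _ => Nat.cast_div_le.trans (le_of_eq (div_eq_mul_inv _ _))
      _ ≤ _ := by
          rw [← Finset.mul_sum]
          refine mul_le_mul_of_nonneg_left (le_trans (le_of_eq ?_) (harmonic_le_one_add_log N))
            (Nat.cast_nonneg N)
          simp [harmonic_eq_sum_Icc, ← Finset.Icc_add_one_left_eq_Ioc]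
  have hsub : Finset.Icc (-(N : ℤ)) N ⊆
      (Finset.Icc 0 N).biUnion fun k : ℕ => {(k : ℤ), -(k : ℤ)} := by
    intro a ha
    rw [Finset.mem_Icc] at ha
    refine Finset.mem_biUnion.mpr ⟨a.natAbs, Finset.mem_Icc.mpr (by omega), ?_⟩
    simp only [Finset.mem_insert, Finset.mem_singleton]
    exact Int.natAbs_eq a
  refine (Finset.sum_le_sum_of_subset_of_nonneg hsub fun _ _ _ => Nat.cast_nonneg _).trans ?_
  refine (sum_biUnion_le _ _ fun _ => Nat.cast_nonneg _).trans ?_
  calc _ ≤ ∑ k ∈ Finset.Icc 0 N, (4 : ℝ) * k.divisors.card := by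
        refine Finset.sum_le_sum fun k _ => ?_
        rcases eq_or_ne (k : ℤ) (-(k : ℤ)) with h | h
        · have : k = 0 := by omega
          simp [this, sdiv]
        · rw [Finset.sum_pair h]
          have h1 := card_sdiv_le (k : ℤ)
          have h2 := card_sdiv_le (-(k : ℤ))
          simp only [Int.natAbs_neg, Int.natAbs_natCast] at h1 h2
          have h3 : ((sdiv (k : ℤ)).card : ℝ) + (sdiv (-(k : ℤ))).card ≤
              4 * k.divisors.card := by
            exact_mod_cast (by omega : (sdiv (k : ℤ)).card + (sdiv (-(k : ℤ))).card ≤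
              4 * k.divisors.card)
          exact h3
    _ ≤ _ := by
        rw [← Finset.mul_sum, mul_assoc, Finset.Icc_eq_cons_Ioc (Nat.zero_le N), Finset.sum_cons,
          Nat.divisors_zero, Finset.card_empty, Nat.cast_zero, zero_add]
        push_cast at hT
        exact mul_le_mul_of_nonneg_left hT (by norm_num)

/-- The forms of the box of side `N` with `a ≠ 0` and a rational zero. -/
def isoForms (N : ℕ) : Set CubicForm :=
  {f | (|f.a| ≤ N ∧ |f.b| ≤ N ∧ |f.c| ≤ N ∧ |f.d| ≤ N) ∧ f.a ≠ 0 ∧ ¬ f.Anisotropic}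

/-- Candidates. -/
def isoCands (N : ℕ) : Finset CubicForm :=
  let I := Finset.Icc (-(N : ℤ)) N
  (((I ×ˢ I) ×ˢ I).image fun q => (⟨q.1.1, q.1.2, q.2, 0⟩ : CubicForm)) ∪
    I.biUnion fun a => I.biUnion fun d => I.biUnion fun b => (sdiv d ×ˢ sdiv a).image fun q =>
      ⟨a, b, -(a * q.1 ^ 3 + b * q.1 ^ 2 * q.2 + d * q.2 ^ 3) / (q.1 * q.2 ^ 2), d⟩

theorem isoForms_subset (N : ℕ) : isoForms N ⊆ (isoCands N : Set CubicForm) := by
  intro f hf
  obtain ⟨⟨ha, hb, hc, hd⟩, ha0, hiso⟩ := hf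
  have hI : ∀ x : ℤ, |x| ≤ N → x ∈ Finset.Icc (-(N : ℤ)) N := fun x hx =>
    Finset.mem_Icc.mpr (abs_le.mp hx)
  rw [Finset.mem_coe, isoCands, Finset.mem_union]
  rcases eq_or_ne f.d 0 with hd0 | hd0
  · refine Or.inl (Finset.mem_image.mpr ⟨((f.a, f.b), f.c), ?_, ?_⟩)
    · simp only [Finset.mem_product]
      exact ⟨⟨hI _ ha, hI _ hb⟩, hI _ hc⟩
    · exact CubicForm.ext rfl rfl rfl hd0.symm
  right
  simp only [CubicForm.Anisotropic, not_forall] at hiso
  obtain ⟨X₀, Y₀, h0, hne⟩ := hiso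
  obtain ⟨X, Y, g, hg, hcop, rfl, rfl⟩ : ∃ X Y g : ℤ, g ≠ 0 ∧ IsCoprime X Y ∧
      X₀ = X * g ∧ Y₀ = Y * g := by
    have hpos : 0 < Int.gcd X₀ Y₀ := Int.gcd_pos_iff.mpr (by tauto)
    obtain ⟨g', X, Y, hg', hcop, e1, e2⟩ := Int.exists_gcd_one' hpos
    exact ⟨X, Y, g', by exact_mod_cast hg'.ne', Int.isCoprime_iff_gcd_eq_one.mpr hcop, e1, e2⟩
  have h1 : f.eval X Y = 0 := by
    refine (mul_eq_zero.mp (?_ : g ^ 3 * f.eval X Y = 0)).resolve_left (pow_ne_zero 3 hg)
    rw [← h0]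
    simp only [CubicForm.eval, Int.cast_id]
    ring
  simp only [CubicForm.eval, Int.cast_id] at h1
  have hX0 : X ≠ 0 := by
    rintro rfl
    have hY : Y ≠ 0 := (isCoprime_zero_left.mp hcop).ne_zero
    have : f.d * Y ^ 3 = 0 := by linear_combination h1
    exact hd0 ((mul_eq_zero.mp this).resolve_right (pow_ne_zero 3 hY))
  have hY0 : Y ≠ 0 := by
    rintro rfl
    have : f.a * X ^ 3 = 0 := by linear_combination h1
    exact ha0 ((mul_eq_zero.mp this).resolve_right (pow_ne_zero 3 hX0))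
  have hXd : X ∣ f.d := (hcop.pow_right (n := 3)).dvd_of_dvd_mul_right
    ⟨-(f.a * X ^ 2 + f.b * X * Y + f.c * Y ^ 2), by linear_combination h1⟩
  have hYa : Y ∣ f.a := (hcop.symm.pow_right (n := 3)).dvd_of_dvd_mul_right
    ⟨-(f.b * X ^ 2 + f.c * X * Y + f.d * Y ^ 2), by linear_combination h1⟩
  simp only [Finset.mem_biUnion, Finset.mem_image, Finset.mem_product]
  refine ⟨f.a, hI _ ha, f.d, hI _ hd, f.b, hI _ hb, (X, Y),
    ⟨mem_sdiv hd0 hXd, mem_sdiv ha0 hYa⟩, ?_⟩
  refine CubicForm.ext rfl rfl ?_ rfl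
  rw [show -(f.a * X ^ 3 + f.b * X ^ 2 * Y + f.d * Y ^ 3) = f.c * (X * Y ^ 2) by
    linear_combination -h1]
  exact Int.mul_ediv_cancel _ (mul_ne_zero hX0 (pow_ne_zero 2 hY0))

theorem card_isoCands (N : ℕ) :
    ((isoCands N).card : ℝ) ≤
      (2 * N + 1) ^ 3 + (2 * N + 1) * (4 * N * (1 + Real.log N)) ^ 2 := by
  set I := Finset.Icc (-(N : ℤ)) N
  have hIc : (I.card : ℝ) = 2 * N + 1 := by
    rw [show I.card = 2 * N + 1 by simp [I, Int.card_Icc]; omega]
    push_cast
    ring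
  refine (Nat.cast_le.mpr (Finset.card_union_le _ _)).trans ?_
  push_cast
  refine add_le_add ((Nat.cast_le.mpr Finset.card_image_le).trans ?_) ?_
  · rw [Finset.card_product, Finset.card_product]
    push_cast
    exact le_of_eq (by rw [hIc]; ring)
  · refine (Nat.cast_le.mpr Finset.card_biUnion_le).trans ?_
    push_cast
    calc _ ≤ ∑ a ∈ I, ∑ d ∈ I, (2 * (N : ℝ) + 1) * ((sdiv d).card * (sdiv a).card) := by
          refine Finset.sum_le_sum fun a _ => (Nat.cast_le.mpr Finset.card_biUnion_le).trans ?_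
          push_cast
          refine Finset.sum_le_sum fun d _ => (Nat.cast_le.mpr Finset.card_biUnion_le).trans ?_
          push_cast
          refine (Finset.sum_le_card_nsmul _ _ ((sdiv d).card * (sdiv a).card : ℝ)
            fun b _ => ?_).trans (le_of_eq (by rw [nsmul_eq_mul, hIc]))
          refine (Nat.cast_le.mpr Finset.card_image_le).trans ?_
          rw [Finset.card_product]
          push_cast
          exact le_rfl
      _ = (2 * (N : ℝ) + 1) * (∑ a ∈ I, ((sdiv a).card : ℝ)) ^ 2 := by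
          rw [sq, Finset.sum_mul_sum, Finset.mul_sum]
          refine Finset.sum_congr rfl fun a _ => ?_
          rw [Finset.mul_sum]
          exact Finset.sum_congr rfl fun d _ => by ring
      _ ≤ _ := by
          gcongr
          exact sum_card_sdiv_le N

theorem isoForms_finite (N : ℕ) : (isoForms N).Finite :=
  (Finset.finite_toSet _).subset (isoForms_subset N)

theorem ncard_isoForms_le (N : ℕ) :
    ((isoForms N).ncard : ℝ) ≤ 1600 * ((N : ℝ) + 1) ^ 3 * Real.sqrt ((N : ℝ) + 1) := by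
  refine le_trans ?_ (le_trans (card_isoCands N) ?_)
  · rw [← Set.ncard_coe_finset]
    exact Nat.cast_le.mpr (Set.ncard_le_ncard (isoForms_subset N) (Finset.finite_toSet _))
  set M := (N : ℝ) + 1 with hM
  have hM1 : 1 ≤ M := by simp [hM]
  set q := Real.sqrt (Real.sqrt M) with hq
  have hq2 : q ^ 2 = Real.sqrt M := Real.sq_sqrt (Real.sqrt_nonneg M)
  have hq4 : q ^ 4 = M := by
    rw [show q ^ 4 = (q ^ 2) ^ 2 by ring, hq2, Real.sq_sqrt (by linarith)]
  have hq1 : 1 ≤ q := Real.one_le_sqrt.mpr (Real.one_le_sqrt.mpr hM1)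
  have hlM : Real.log N ≤ 4 * q := by
    have h1 : Real.log N ≤ Real.log M := by
      rcases Nat.eq_zero_or_pos N with h | h
      · simp [hM, h]
      · exact Real.log_le_log (by exact_mod_cast h) (by simp [hM])
    have h2 : Real.log M = 4 * Real.log q := by
      rw [← hq4, Real.log_pow]; norm_num
    have h3 := Real.log_le_sub_one_of_pos (by linarith : 0 < q)
    linarith
  have hl0 : 0 ≤ Real.log N := Real.log_natCast_nonneg N
  have hN : (N : ℝ) = M - 1 := by simp [hM]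
  calc _ ≤ (2 * M) ^ 3 + 2 * M * (4 * M * (5 * q)) ^ 2 := by
        gcongr <;> linarith
    _ = 8 * M ^ 3 + 800 * M ^ 3 * q ^ 2 := by ring
    _ ≤ _ := by
        rw [hq2]
        nlinarith [pow_nonneg (by linarith : 0 ≤ M) 3, Real.one_le_sqrt.mpr hM1]

/-- **The forms with a rational zero are negligible.** -/
theorem tendsto_isoForms (B : ℝ) :
    Tendsto (fun T : ℝ => ((isoForms ⌈B * T⌉₊).ncard : ℝ) / T ^ 4) atTop (𝓝 0) := by
  set D := |B| + 2
  have hlim : Tendsto (fun T : ℝ => 1600 * D ^ 4 / Real.sqrt T) atTop (𝓝 0) :=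
    tendsto_const_nhds.div_atTop Real.tendsto_sqrt_atTop
  refine squeeze_zero' (Eventually.of_forall fun T => by positivity) ?_ hlim
  filter_upwards [eventually_ge_atTop 1] with T hT
  have hN : (⌈B * T⌉₊ : ℝ) + 1 ≤ D * T := by
    have hBT : (⌈B * T⌉₊ : ℝ) ≤ |B| * T + 1 := by
      refine le_trans ?_ (Nat.ceil_lt_add_one (by positivity : 0 ≤ |B| * T)).le
      exact_mod_cast Nat.ceil_mono (mul_le_mul_of_nonneg_right (le_abs_self B) (by linarith))
    nlinarith
  have hD : 1 ≤ D := by simp [D]; linarith [abs_nonneg B]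
  have hs : Real.sqrt ((⌈B * T⌉₊ : ℝ) + 1) ≤ D * Real.sqrt T := by
    refine (Real.sqrt_le_sqrt hN).trans ?_
    rw [Real.sqrt_mul (by linarith)]
    exact mul_le_mul_of_nonneg_right (Real.sqrt_le_iff.mpr ⟨by linarith, by nlinarith⟩)
      (Real.sqrt_nonneg T)
  rw [div_le_div_iff₀ (by positivity) (by positivity)]
  calc ((isoForms ⌈B * T⌉₊).ncard : ℝ) * Real.sqrt T
      ≤ 1600 * (D * T) ^ 3 * (D * Real.sqrt T) * Real.sqrt T := by
        gcongr
        exact (ncard_isoForms_le _).trans (by gcongr)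
    _ = 1600 * D ^ 4 * T ^ 3 * Real.sqrt T ^ 2 := by ring
    _ = 1600 * D ^ 4 * T ^ 4 := by rw [Real.sq_sqrt (by linarith)]; ring

end FA.CubicFormCount
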