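import Fermat.Agent.CubicFormCount.Region
import Fermat.Agent.CubicFormCount.Reducible
import Fermat.Agent.CubicFormCount.Classes

/-!
# The asymptotic count of classes of binary cubic forms

For a set `Q` of forms that is invariant under equivalence and periodic modulo `m`, the classes in
`Q` without rational zero and with `0 < ± disc ≤ X` are asymptotic to the density of `Q` times
`π² / 72 X`, resp. `π² / 24 X`.
-/

set_option autoImplicit false

noncomputable section

open FA.Thue FA.DeloneFaddeev Filter MeasureTheory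
open scoped Topology Classical Real Pointwise

namespace FA.CubicFormCount

/-- The form with coefficients `v`. -/
def mkForm (v : Fin 4 → ℤ) : CubicForm := ⟨v 0, v 1, v 2, v 3⟩

/-- The coefficients of a form. -/
def coeffs (f : CubicForm) : Fin 4 → ℤ := ![f.a, f.b, f.c, f.d]

theorem mkForm_coeffs (f : CubicForm) : mkForm (coeffs f) = f := rfl

theorem coeffs_mkForm (v : Fin 4 → ℤ) : coeffs (mkForm v) = v := by
  funext i; fin_cases i <;> rfl

theorem toVec_mkForm (v : Fin 4 → ℤ) (i : Fin 4) : toVec (mkForm v) i = (v i : ℝ) := by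
  fin_cases i <;> rfl

/-- The residues modulo `m` of the forms in `Q`. -/
def residues (m : ℕ) (Q : Set CubicForm) : Finset (Fin 4 → ℤ) :=
  (Fintype.piFinset fun _ : Fin 4 => Finset.Ico (0 : ℤ) m).filter fun r => mkForm r ∈ Q

/-- The density of `Q`. -/
def density (m : ℕ) (Q : Set CubicForm) : ℝ := (residues m Q).card / (m : ℝ) ^ 4

/-- Membership depends only on the coefficients modulo `m`. -/
def PeriodicSet (m : ℕ) (Q : Set CubicForm) : Prop :=
  ∀ v w : Fin 4 → ℤ, (∀ i, (m : ℤ) ∣ v i - w i) → mkForm v ∈ Q → mkForm w ∈ Q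

/-- The forms in `Q` lying in `T • S`. -/
def formsIn (Q : Set CubicForm) (S : Set (Fin 4 → ℝ)) (T : ℝ) : Set CubicForm :=
  {f | f ∈ Q ∧ (fun i => toVec f i / T) ∈ S}

theorem formsIn_eq_biUnion {m : ℕ} (hm : 0 < m) {Q : Set CubicForm} (hQ : PeriodicSet m Q)
    (S : Set (Fin 4 → ℝ)) (T : ℝ) :
    formsIn Q S T = ⋃ r ∈ (residues m Q : Set (Fin 4 → ℤ)),
      (fun k => mkForm (fun i => (m : ℤ) * k i + r i)) ''
        latPts (T / m) (fun i => (r i : ℝ) / m) S := by
  have hm' : (m : ℝ) ≠ 0 := by exact_mod_cast hm.ne'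
  have hscale : ∀ (k r : Fin 4 → ℤ) (i : Fin 4),
      ((k i : ℝ) + (r i : ℝ) / m) / (T / m) =
        toVec (mkForm fun j => (m : ℤ) * k j + r j) i / T := by
    intro k r i
    rw [toVec_mkForm, add_div' _ _ _ hm', div_div_div_cancel_right₀ hm']
    push_cast
    ring
  ext f
  simp only [Set.mem_iUnion, Set.mem_image, Finset.mem_coe, exists_prop, formsIn,
    Set.mem_ofPred_eq]
  constructor
  · rintro ⟨hf, hS⟩
    refine ⟨fun i => coeffs f i % m, ?_, fun i => coeffs f i / m, ?_, ?_⟩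
    · simp only [residues, Finset.mem_filter, Fintype.mem_piFinset, Finset.mem_Ico]
      refine ⟨fun i => ⟨Int.emod_nonneg _ (by omega), Int.emod_lt_of_pos _ (by omega)⟩,
        hQ (coeffs f) _ (fun i => ?_) hf⟩
      exact Int.dvd_self_sub_emod
    · show (fun i => _) ∈ S
      convert hS using 1
      funext i
      refine (hscale (fun i => coeffs f i / m) (fun i => coeffs f i % m) i).trans ?_
      simp only [Int.mul_ediv_add_emod]
      rfl
    · simp only [Int.mul_ediv_add_emod]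
      rfl
  · rintro ⟨r, hr, k, hk, rfl⟩
    simp only [residues, Finset.mem_filter] at hr
    refine ⟨hQ r _ (fun i => ⟨-k i, by ring⟩) hr.2, ?_⟩
    simp only [← hscale]
    exact hk

theorem ncard_formsIn {m : ℕ} (hm : 0 < m) {Q : Set CubicForm} (hQ : PeriodicSet m Q)
    {S : Set (Fin 4 → ℝ)} (hS : Bornology.IsBounded S) {T : ℝ} (hT : 0 < T) :
    (formsIn Q S T).Finite ∧ (formsIn Q S T).ncard =
      ∑ r ∈ residues m Q, (latPts (T / m) (fun i => (r i : ℝ) / m) S).ncard := by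
  have hx : 0 < T / m := div_pos hT (by exact_mod_cast hm)
  have hinj : ∀ r : Fin 4 → ℤ, Function.Injective
      fun k : Fin 4 → ℤ => mkForm (fun i => (m : ℤ) * k i + r i) := by
    intro r k k' h
    funext i
    have := congrFun ((coeffs_mkForm _).symm.trans ((congrArg coeffs h).trans (coeffs_mkForm _))) i
    exact mul_left_cancel₀ (by exact_mod_cast hm.ne') (add_right_cancel this)
  have hfin : ∀ r : Fin 4 → ℤ, ((fun k => mkForm (fun i => (m : ℤ) * k i + r i)) ''
      latPts (T / m) (fun i => (r i : ℝ) / m) S).Finite := fun r =>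
    (latPts_finite hx _ hS).image _
  have hU := formsIn_eq_biUnion hm hQ S T
  refine ⟨hU ▸ (residues m Q).finite_toSet.biUnion fun r _ => hfin r, ?_⟩
  set R := residues m Q
  have hF : formsIn Q S T = ↑(R.biUnion fun r => (hfin r).toFinset) := by
    rw [hU]; simp
  rw [hF, Set.ncard_coe_finset, Finset.card_biUnion]
  · refine Finset.sum_congr rfl fun r _ => ?_
    rw [← Set.ncard_eq_toFinset_card _ (hfin r), Set.ncard_image_of_injective _ (hinj r)]
  · intro r hr r' hr' hne
    refine Finset.disjoint_left.mpr fun f h1 h2 => hne ?_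
    rw [Set.Finite.mem_toFinset] at h1 h2
    obtain ⟨k, -, rfl⟩ := h1
    obtain ⟨k', -, h⟩ := h2
    funext i
    have e := congrFun
      ((coeffs_mkForm _).symm.trans ((congrArg coeffs h).trans (coeffs_mkForm _))) i
    have b1 := Fintype.mem_piFinset.mp (Finset.mem_filter.mp hr).1 i
    have b2 := Fintype.mem_piFinset.mp (Finset.mem_filter.mp hr').1 i
    rw [Finset.mem_Ico] at b1 b2
    have h1 := congrArg (· % (m : ℤ)) e
    simp only [Int.mul_add_emod_self_left] at h1
    rw [Int.emod_eq_of_lt b1.1 b1.2, Int.emod_eq_of_lt b2.1 b2.2] at h1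
    exact h1.symm

theorem formsIn_upper {m : ℕ} (hm : 0 < m) {Q : Set CubicForm} (hQ : PeriodicSet m Q)
    {S : Set (Fin 4 → ℝ)} (hS : Bornology.IsBounded S) {V η : ℝ}
    (hV : volume.real (closure S) ≤ V) (hη : 0 < η) :
    ∀ᶠ T : ℝ in atTop,
      ((formsIn Q S T).ncard : ℝ) / T ^ 4 ≤ density m Q * (V + η) := by
  have hm' : (0 : ℝ) < m := by exact_mod_cast hm
  have h : ∀ r ∈ residues m Q, ∀ᶠ T : ℝ in atTop,
      ((latPts (T / m) (fun i => (r i : ℝ) / m) S).ncard : ℝ) / (T / m) ^ 4 ≤ V + η := fun r _ =>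
    ((tendsto_id.atTop_div_const hm').eventually
      (eventually_latPts_lt (fun i => (r i : ℝ) / m) hS (V := V + η) (by linarith))).mono
      fun T hT => by simpa using hT.le
  filter_upwards [(Finset.eventually_all _).mpr h, eventually_gt_atTop (0 : ℝ)] with T hr hT
  rw [(ncard_formsIn hm hQ hS hT).2, Nat.cast_sum, Finset.sum_div]
  refine (Finset.sum_le_card_nsmul _ _ ((V + η) / (m : ℝ) ^ 4) fun r hrr => ?_).trans
    (le_of_eq (by rw [nsmul_eq_mul, density]; ring))
  have := hr r hrr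
  rw [le_div_iff₀ (by positivity)]
  refine le_trans (le_of_eq ?_) this
  rw [div_pow, div_div_eq_mul_div]
  ring

theorem formsIn_lower {m : ℕ} (hm : 0 < m) {Q : Set CubicForm} (hQ : PeriodicSet m Q)
    {S : Set (Fin 4 → ℝ)} (hS : Bornology.IsBounded S) {V η : ℝ}
    (hV : V ≤ volume.real (interior S)) (hη : 0 < η) :
    ∀ᶠ T : ℝ in atTop,
      density m Q * (V - η) ≤ ((formsIn Q S T).ncard : ℝ) / T ^ 4 := by
  have hm' : (0 : ℝ) < m := by exact_mod_cast hm
  have h : ∀ r ∈ residues m Q, ∀ᶠ T : ℝ in atTop,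
      V - η ≤ ((latPts (T / m) (fun i => (r i : ℝ) / m) S).ncard : ℝ) / (T / m) ^ 4 := fun r _ =>
    ((tendsto_id.atTop_div_const hm').eventually
      (eventually_lt_latPts (fun i => (r i : ℝ) / m) hS (V := V - η) (by linarith))).mono
      fun T hT => by simpa using hT.le
  filter_upwards [(Finset.eventually_all _).mpr h, eventually_gt_atTop (0 : ℝ)] with T hr hT
  rw [(ncard_formsIn hm hQ hS hT).2, Nat.cast_sum, Finset.sum_div]
  refine (le_of_eq (by rw [nsmul_eq_mul, density]; ring)).trans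
    (Finset.card_nsmul_le_sum _ _ ((V - η) / (m : ℝ) ^ 4) fun r hrr => ?_)
  have := hr r hrr
  rw [div_le_iff₀ (by positivity)]
  refine this.trans (le_of_eq ?_)
  rw [div_pow, div_div_eq_mul_div]
  ring

/-- The box forms that are not counted. -/
def badForms (N : ℕ) : Set CubicForm :=
  isoForms N ∪ {f | f.a = 0 ∧ |f.b| ≤ N ∧ |f.c| ≤ N ∧ |f.d| ≤ N}

theorem zeroA_bound (N : ℕ) :
    {f : CubicForm | f.a = 0 ∧ |f.b| ≤ N ∧ |f.c| ≤ N ∧ |f.d| ≤ N}.Finite ∧
      ({f : CubicForm | f.a = 0 ∧ |f.b| ≤ N ∧ |f.c| ≤ N ∧ |f.d| ≤ N}.ncard : ℝ) ≤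
        (2 * (N : ℝ) + 1) ^ 3 := by
  set I := Finset.Icc (-(N : ℤ)) N
  set G := ((I ×ˢ I) ×ˢ I).image fun q => (⟨0, q.1.1, q.1.2, q.2⟩ : CubicForm)
  have hsub : {f : CubicForm | f.a = 0 ∧ |f.b| ≤ N ∧ |f.c| ≤ N ∧ |f.d| ≤ N} ⊆
      (G : Set CubicForm) := by
    rintro f ⟨h0, hb, hc, hd⟩
    refine Finset.mem_image.mpr ⟨((f.b, f.c), f.d), ?_, CubicForm.ext h0.symm rfl rfl rfl⟩
    simp only [I, Finset.mem_product, Finset.mem_Icc, ← abs_le]
    exact ⟨⟨hb, hc⟩, hd⟩
  refine ⟨(Finset.finite_toSet _).subset hsub, ?_⟩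
  refine (Nat.cast_le.mpr ((Set.ncard_le_ncard hsub (Finset.finite_toSet _)).trans
    ((Set.ncard_coe_finset _).trans_le Finset.card_image_le))).trans (le_of_eq ?_)
  rw [Finset.card_product, Finset.card_product]
  have : I.card = 2 * N + 1 := by simp [I, Int.card_Icc]; omega
  rw [this]
  push_cast
  ring

theorem badForms_finite (N : ℕ) : (badForms N).Finite :=
  (isoForms_finite N).union (zeroA_bound N).1

theorem tendsto_badForms (B : ℝ) :
    Tendsto (fun T : ℝ => ((badForms ⌈B * T⌉₊).ncard : ℝ) / T ^ 4) atTop (𝓝 0) := by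
  have hlim := (tendsto_isoForms B).add
    ((tendsto_inv_atTop_zero.const_mul ((2 * |B| + 3) ^ 3)) : Tendsto _ atTop (𝓝 _))
  rw [mul_zero, add_zero] at hlim
  refine squeeze_zero' (Eventually.of_forall fun T => by positivity) ?_ hlim
  filter_upwards [eventually_ge_atTop 1] with T hT
  have hBT : (⌈B * T⌉₊ : ℝ) ≤ |B| * T + 1 := by
    refine le_trans ?_ (Nat.ceil_lt_add_one (by positivity : 0 ≤ |B| * T)).le
    exact_mod_cast Nat.ceil_mono (mul_le_mul_of_nonneg_right (le_abs_self B) (by linarith))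
  calc ((badForms ⌈B * T⌉₊).ncard : ℝ) / T ^ 4
      ≤ ((isoForms ⌈B * T⌉₊).ncard + (2 * (⌈B * T⌉₊ : ℝ) + 1) ^ 3) / T ^ 4 := by
        gcongr
        refine (Nat.cast_le.mpr (Set.ncard_union_le _ _)).trans ?_
        push_cast
        exact add_le_add le_rfl (zeroA_bound _).2
    _ ≤ ((isoForms ⌈B * T⌉₊).ncard + ((2 * |B| + 3) * T) ^ 3) / T ^ 4 := by
        gcongr
        nlinarith [abs_nonneg B]
    _ = _ := by
        rw [add_div, show (((2 * |B| + 3) * T) ^ 3) / T ^ 4 = (2 * |B| + 3) ^ 3 * T⁻¹ by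
          field_simp]

theorem toVec_div_eq {ε : Bool} {f : CubicForm} {t : Fin 4 → ℝ} (h : toVec f = par ε t) (T : ℝ) :
    (fun i => toVec f i / T) = par ε ![T⁻¹ * t 0, T⁻¹ * t 1, t 2, t 3] := by
  rw [par_scale, ← h]
  funext i
  simp [div_eq_inv_mul]

theorem redSet_subset (ε : Bool) {Q : Set CubicForm} {T Y : ℝ} (hT : 0 < T) :
    redSet ε Q T ⊆ formsIn Q (region ε Y) T ∪ cusp ε T Y := by
  rintro f ⟨hq, ha, t, ht⟩
  rcases le_or_gt (t 3) Y with hY | hY
  · refine Or.inl ⟨hq, ?_⟩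
    obtain ⟨he, hw, hy, hx, hn, hd⟩ := ht
    rw [toVec_div_eq he]
    refine ⟨_, ⟨by simpa using hx, by simpa using ⟨hy.le, hY⟩, by simpa using hn, ?_⟩, rfl⟩
    simp only [Matrix.cons_val_zero, Matrix.cons_val_one, Matrix.cons_val]
    rw [show kst ε * ((T⁻¹ * t 0) ^ 2 + (T⁻¹ * t 1) ^ 2) ^ 2 * t 3 ^ 6 =
      kst ε * (t 0 ^ 2 + t 1 ^ 2) ^ 2 * t 3 ^ 6 / T ^ 4 by field_simp, div_le_one (by positivity)]
    exact hd
  · exact Or.inr ⟨ha.a_ne_zero, t, ht, hY.le⟩

theorem formsIn_regionO_subset (ε : Bool) {Q : Set CubicForm} {T Y B : ℝ} (hT : 0 < T)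
    (hB : ∀ v ∈ region ε Y, ‖v‖ ≤ B) :
    formsIn Q (regionO ε Y) T ⊆ redSetO ε Q T ∪ badForms ⌈B * T⌉₊ := by
  rintro f ⟨hq, hS⟩
  have hnorm := hB _ (regionO_subset ε Y hS)
  have hbox : ∀ i, |toVec f i| ≤ ((⌈B * T⌉₊ : ℤ) : ℝ) := fun i => by
    have h1 := (norm_le_pi_norm (fun j => toVec f j / T) i).trans hnorm
    rw [Real.norm_eq_abs, abs_div, abs_of_pos hT, div_le_iff₀ hT] at h1
    push_cast
    exact h1.trans (Nat.le_ceil _)
  have ba : |f.a| ≤ (⌈B * T⌉₊ : ℤ) :=
    (Int.cast_le (R := ℝ)).mp (by rw [Int.cast_abs]; simpa [toVec] using hbox 0)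
  have bb : |f.b| ≤ (⌈B * T⌉₊ : ℤ) :=
    (Int.cast_le (R := ℝ)).mp (by rw [Int.cast_abs]; simpa [toVec] using hbox 1)
  have bc : |f.c| ≤ (⌈B * T⌉₊ : ℤ) :=
    (Int.cast_le (R := ℝ)).mp (by rw [Int.cast_abs]; simpa [toVec] using hbox 2)
  have bd : |f.d| ≤ (⌈B * T⌉₊ : ℤ) :=
    (Int.cast_le (R := ℝ)).mp (by rw [Int.cast_abs]; simpa [toVec] using hbox 3)
  by_cases ha0 : f.a = 0
  · exact Or.inr (Or.inr ⟨ha0, bb, bc, bd⟩)
  by_cases ha : f.Anisotropic
  swap
  · exact Or.inr (Or.inl ⟨⟨ba, bb, bc, bd⟩, ha0, ha⟩)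
  obtain ⟨t, ⟨⟨hx, hy, hn, hd⟩, hr⟩, ht⟩ := hS
  refine Or.inl ⟨hq, ha, ![T * t 0, T * t 1, t 2, t 3],
    ⟨?_, ?_, by simpa using hy.1, by simpa using Set.Ioo_subset_Icc_self hx,
      by simpa using hn.le, ?_⟩, by simpa using hx, by simpa using hn⟩
  · rw [par_scale, ht]
    funext i
    simp [mul_div_cancel₀ _ hT.ne']
  · simp only [Matrix.cons_val_zero, Matrix.cons_val_one, ne_eq, mul_eq_zero, hT.ne', false_or]
    by_contra hc
    push Not at hc
    rw [hc.1, hc.2] at hr
    simp at hr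
  · simp only [Matrix.cons_val_zero, Matrix.cons_val_one, Matrix.cons_val]
    rw [show kst ε * ((T * t 0) ^ 2 + (T * t 1) ^ 2) ^ 2 * t 3 ^ 6 =
      T ^ 4 * (kst ε * (t 0 ^ 2 + t 1 ^ 2) ^ 2 * t 3 ^ 6) by ring]
    exact mul_le_of_le_one_right (by positivity) hd.le

theorem redSet_finite (ε : Bool) {m : ℕ} (hm : 0 < m) {Q : Set CubicForm} (hQ : PeriodicSet m Q)
    {T : ℝ} (hT : 0 < T) : (redSet ε Q T).Finite :=
  ((ncard_formsIn hm hQ (isCompact_region ε 1).isBounded hT).1.union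
    (cusp_bound ε hT.le le_rfl).1).subset (redSet_subset ε hT)

/-- The main constant. -/
def mainConst (ε : Bool) : ℝ := π ^ 2 * cst ε / (24 * kst ε)

theorem regionVol_eq (ε : Bool) (Y : ℝ) :
    regionVol ε Y = 2 * mainConst ε - π * cst ε / (4 * kst ε) / Y := by
  have := kst_pos ε
  rw [regionVol, mainConst]
  field_simp
  ring

theorem mainConst_true : mainConst true = π ^ 2 / 72 := by
  simp [mainConst, cst, kst]; ring

theorem mainConst_false : mainConst false = π ^ 2 / 24 := by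
  simp [mainConst, cst, kst]; ring

theorem periodic_ones : PeriodicSet 1 (Set.univ : Set CubicForm) := fun _ _ _ _ => trivial

theorem density_univ : density 1 (Set.univ : Set CubicForm) = 1 := by
  have : residues 1 (Set.univ : Set CubicForm) = {fun _ => 0} := by
    ext r
    simp [residues, Fintype.mem_piFinset, funext_iff]
    exact forall_congr' fun i => by omega
  simp [density, this]

/-- **Davenport's theorem with congruence conditions**, in the variable `T = X ^ (1/4)`. -/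
theorem tendsto_classes_pow (ε : Bool) {m : ℕ} (hm : 0 < m) {Q : Set CubicForm}
    (hinv : ∀ f g, Twisted f g → f ∈ Q → g ∈ Q) (hQ : PeriodicSet m Q) :
    Tendsto (fun T : ℝ => ((classes ε Q (T ^ 4)).ncard : ℝ) / T ^ 4) atTop
      (𝓝 (density m Q * mainConst ε)) := by
  set δ := density m Q with hδdef
  have hδ : 0 ≤ δ := by rw [hδdef, density]; positivity
  set C₁ := π * cst ε / (4 * kst ε)
  have hC₁ : 0 ≤ C₁ := by have := kst_pos ε; have := cst_pos ε; positivity
  rw [Metric.tendsto_atTop']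
  intro η hη
  set Y : ℝ := max 1 ((714 + δ * C₁) * 4 / η)
  have hY : 1 ≤ Y := le_max_left _ _
  have hYb : (714 + δ * C₁) / Y ≤ η / 4 := by
    have h : (714 + δ * C₁) * 4 / η ≤ Y := le_max_right _ _
    rw [div_le_iff₀ hη] at h
    rw [div_le_iff₀ (by linarith)]
    linarith
  set e := η / (4 * (δ + 1))
  have he : 0 < e := by positivity
  have hδe : δ * e ≤ η / 4 := by
    rw [show δ * e = η / 4 * (δ / (δ + 1)) by simp only [e]; field_simp]
    exact mul_le_of_le_one_right (by linarith) ((div_le_one (by linarith)).mpr (by linarith))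
  obtain ⟨B, hB⟩ := (isCompact_region ε Y).isBounded.exists_norm_le
  have hup := formsIn_upper hm hQ (isCompact_region ε Y).isBounded (volume_region_le ε hY) he
  have hlo := formsIn_lower hm hQ ((isCompact_region ε Y).isBounded.subset (regionO_subset ε Y))
    (volume_regionO_ge ε hY) he
  have hbad := (tendsto_badForms B).eventually_le_const (by linarith : (0 : ℝ) < η / 4)
  have h1 : δ * C₁ / Y ≤ η / 4 := le_trans (by gcongr; linarith) hYb
  have h2 : 714 / Y ≤ η / 4 := le_trans (by gcongr; nlinarith) hYb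
  have key : ∀ᶠ T : ℝ in atTop,
      dist (((classes ε Q (T ^ 4)).ncard : ℝ) / T ^ 4) (δ * mainConst ε) < η := by
    filter_upwards [hup, hlo, hbad, eventually_gt_atTop (0 : ℝ)] with T hu hl hb hT
    obtain ⟨-, s1, s2⟩ := classes_sandwich ε hinv (redSet_finite ε hm hQ hT)
    have hT4 : 0 < T ^ 4 := by positivity
    obtain ⟨c1, c2⟩ := cusp_bound ε hT.le hY
    have u1 : 2 * ((classes ε Q (T ^ 4)).ncard : ℝ) / T ^ 4 ≤
        ((formsIn Q (region ε Y) T).ncard : ℝ) / T ^ 4 + 714 / Y := by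
      rw [← mul_div_cancel_right₀ (714 / Y) hT4.ne', ← add_div]
      gcongr
      refine le_trans (by exact_mod_cast s2) (le_trans (Nat.cast_le.mpr (le_trans
        (Set.ncard_le_ncard (redSet_subset ε hT) ((ncard_formsIn hm hQ
          (isCompact_region ε Y).isBounded hT).1.union c1)) (Set.ncard_union_le _ _))) ?_)
      push_cast
      exact add_le_add le_rfl (c2.trans (le_of_eq (by ring)))
    have l1 : ((formsIn Q (regionO ε Y) T).ncard : ℝ) / T ^ 4 ≤
        2 * ((classes ε Q (T ^ 4)).ncard : ℝ) / T ^ 4 +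
          ((badForms ⌈B * T⌉₊).ncard : ℝ) / T ^ 4 := by
      rw [← add_div]
      gcongr
      refine le_trans (Nat.cast_le.mpr (le_trans (Set.ncard_le_ncard
        (formsIn_regionO_subset ε hT hB) (((redSet_finite ε hm hQ hT).subset
          (show redSetO ε Q T ⊆ redSet ε Q T from
            fun f ⟨a1, a2, t, a3, _⟩ => ⟨a1, a2, t, a3⟩)).union (badForms_finite _)))
        (Set.ncard_union_le _ _))) ?_
      push_cast
      exact add_le_add (by exact_mod_cast s1) le_rfl
    rw [regionVol_eq] at hu hl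
    rw [mul_add, mul_sub, ← mul_div_assoc] at hu
    rw [mul_sub, mul_sub, ← mul_div_assoc] at hl
    rw [Real.dist_eq, abs_lt]
    rw [mul_div_assoc] at u1 l1
    have : 0 ≤ δ * C₁ / Y := by positivity
    constructor <;> linarith
  obtain ⟨T₀, h⟩ := eventually_atTop.mp key
  exact ⟨T₀, fun T hT => h T hT.le⟩

/-- **Davenport's theorem with congruence conditions.** -/
theorem tendsto_classes (ε : Bool) {m : ℕ} (hm : 0 < m) {Q : Set CubicForm}
    (hinv : ∀ f g, Twisted f g → f ∈ Q → g ∈ Q) (hQ : PeriodicSet m Q) :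
    Tendsto (fun X : ℝ => ((classes ε Q X).ncard : ℝ) / X) atTop
      (𝓝 (density m Q * mainConst ε)) := by
  refine ((tendsto_classes_pow ε hm hinv hQ).comp
    (tendsto_rpow_atTop (y := (1 / 4 : ℝ)) (by norm_num))).congr' ?_
  filter_upwards [eventually_ge_atTop (0 : ℝ)] with X hX
  have : (X ^ (1 / 4 : ℝ)) ^ 4 = X := by
    rw [← Real.rpow_natCast, ← Real.rpow_mul hX]; norm_num
  simp only [Function.comp_apply, this]

theorem classes_finite (ε : Bool) (Q : Set CubicForm) (X : ℝ) : (classes ε Q X).Finite := by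
  set T := (max X 1) ^ (1 / 4 : ℝ)
  have hT : 0 < T := Real.rpow_pos_of_pos (by positivity) _
  have hT4 : T ^ 4 = max X 1 := by
    rw [← Real.rpow_natCast, ← Real.rpow_mul (by positivity)]; norm_num
  obtain ⟨h, -, -⟩ := classes_sandwich ε (Q := Set.univ) (fun _ _ _ _ => trivial)
    (redSet_finite ε one_pos periodic_ones hT)
  refine h.subset ?_
  rintro c ⟨f, -, ha, h0, h1, rfl⟩
  exact ⟨f, trivial, ha, h0, by rw [hT4]; exact h1.trans (le_max_left _ _), rfl⟩

end FA.CubicFormCount
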