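import Fermat.Agent.CubicFormCount.Param

/-!
# The cusp

At most `714 T ^ 4 / Y` integral forms with `a ≠ 0`, reduced parameters, height at least `Y` and
discriminant at most `T ^ 4` in absolute value. A translation brings `b` into `[0, 3 |a|)`; then
`P = b² - 3 a c` and `U = 2 b³ - 9 a b c + 27 a² d` leave few values, because `|U|` is within
`O (a² y² √P)` of `2 P ^ (3/2)`.
-/

set_option autoImplicit false

noncomputable section

open FA.Thue
open scoped Classical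

namespace FA.CubicFormCount

/-- The form has parameters in the closed half fundamental domain and discriminant at most
`T ^ 4`. -/
def IsRed (ε : Bool) (T : ℝ) (f : CubicForm) (t : Fin 4 → ℝ) : Prop :=
  toVec f = par ε t ∧ (t 0 ≠ 0 ∨ t 1 ≠ 0) ∧ 0 < t 3 ∧ t 2 ∈ Set.Icc 0 (1 / 2) ∧
    1 ≤ t 2 ^ 2 + t 3 ^ 2 ∧ kst ε * (t 0 ^ 2 + t 1 ^ 2) ^ 2 * t 3 ^ 6 ≤ T ^ 4

/-- The translate of `f` by `k`. -/
def shift (f : CubicForm) (k : ℤ) : CubicForm := f.act 1 k 0 1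

theorem toVec_shift {ε : Bool} {f : CubicForm} {t : Fin 4 → ℝ} (h : toVec f = par ε t) (k : ℤ) :
    toVec (shift f k) = par ε ![t 0, t 1, t 2 + k, t 3] := by
  refine rev_ext fun X Y => ?_
  rw [rev_toVec, shift, CubicForm.eval_act, ← rev_toVec, h]
  cases ε <;> simp [rev, par] <;> ring

theorem shift_b (f : CubicForm) (k : ℤ) : (shift f k).b = f.b + 3 * f.a * k := by
  simp [shift, CubicForm.act]
  ring

theorem shift_a (f : CubicForm) (k : ℤ) : (shift f k).a = f.a := by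
  simp [shift, CubicForm.act, CubicForm.eval]

/-- The normalising translation. -/
def normShift (f : CubicForm) : CubicForm := shift f (-(f.b / (3 * f.a)))

theorem normShift_b (f : CubicForm) : (normShift f).b = f.b % (3 * f.a) := by
  rw [normShift, shift_b, Int.emod_def]
  ring

/-- The integers within `r` of `c`. -/
def nearInts (c r : ℝ) : Finset ℤ := Finset.Icc ⌈c - r⌉ ⌊c + r⌋

theorem mem_nearInts {c r : ℝ} {x : ℤ} (h : |(x : ℝ) - c| ≤ r) : x ∈ nearInts c r := by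
  obtain ⟨h1, h2⟩ := abs_le.mp h
  rw [nearInts, Finset.mem_Icc, Int.ceil_le, Int.le_floor]
  constructor <;> linarith

theorem card_nearInts (c : ℝ) {r : ℝ} (hr : 0 ≤ r) : ((nearInts c r).card : ℝ) ≤ 2 * r + 1 := by
  rw [nearInts, Int.card_Icc]
  rcases le_or_gt (⌊c + r⌋ + 1 - ⌈c - r⌉) 0 with h | h
  · rw [Int.toNat_of_nonpos h]
    push_cast
    linarith
  · rw [← Int.cast_natCast (R := ℝ), Int.toNat_of_nonneg h.le]
    push_cast
    linarith [Int.floor_le (c + r), Int.le_ceil (c - r)]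

theorem abs_sub_cube {b q D : ℝ} (hq : 0 ≤ q) (hqb : q ≤ b) (hD : b ^ 2 - q ^ 2 ≤ D) :
    0 ≤ b ^ 3 - q ^ 3 ∧ b ^ 3 - q ^ 3 ≤ 3 / 2 * b * D := by
  refine ⟨by nlinarith [pow_le_pow_left₀ hq hqb 3], ?_⟩
  nlinarith [mul_nonneg (sq_nonneg (b - q)) (by linarith : 0 ≤ b + 2 * q),
    mul_le_mul_of_nonneg_left hD (hq.trans hqb)]

/-- Bounds at height between `Y` and `2 Y`. -/
theorem bounds {ε : Bool} {T Y : ℝ} {f : CubicForm} {t : Fin 4 → ℝ} (h : IsRed ε T f t)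
    (hT : 0 ≤ T) (hY : 0 < Y) (h1 : Y ≤ t 3) (h2 : t 3 ≤ 2 * Y) (k : ℤ) :
    (f.a : ℝ) ^ 2 ≤ T ^ 2 / (2 * Y ^ 3) ∧
      |((shift f k).b : ℝ) ^ 2 - 3 * f.a * (shift f k).c| ≤ 9 * (T ^ 2 / (2 * Y)) ∧
      ∃ σ : Bool, |(2 * ((shift f k).b : ℝ) ^ 3 - 9 * f.a * (shift f k).b * (shift f k).c +
          27 * (f.a : ℝ) ^ 2 * (shift f k).d) -
          (if σ then 1 else -1) *
            (2 * Real.sqrt (((shift f k).b : ℝ) ^ 2 - 3 * f.a * (shift f k).c) ^ 3)| ≤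
        216 * (f.a : ℝ) ^ 2 * Y ^ 2 * Real.sqrt (T ^ 2 / (2 * Y)) := by
  obtain ⟨he, -, hy, -, -, hd⟩ := h
  have ha : (f.a : ℝ) = t 0 := by
    have := congrFun he 0
    rwa [par_zero] at this
  have hk : 4 ≤ kst ε := by cases ε <;> norm_num [kst]
  have hr : t 0 ^ 2 + t 1 ^ 2 ≤ T ^ 2 / (2 * t 3 ^ 3) := by
    rw [le_div_iff₀ (by positivity)]
    refine (pow_le_pow_iff_left₀ (by positivity) (by positivity) two_ne_zero).mp ?_
    nlinarith [mul_le_mul_of_nonneg_right hk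
      (by positivity : 0 ≤ (t 0 ^ 2 + t 1 ^ 2) ^ 2 * t 3 ^ 6)]
  have hn : (t 0 ^ 2 + t 1 ^ 2) * t 3 ^ 2 ≤ T ^ 2 / (2 * Y) := by
    calc (t 0 ^ 2 + t 1 ^ 2) * t 3 ^ 2 ≤ T ^ 2 / (2 * t 3 ^ 3) * t 3 ^ 2 := by gcongr
      _ = T ^ 2 / (2 * t 3) := by field_simp
      _ ≤ T ^ 2 / (2 * Y) := by gcongr
  refine ⟨?_, ?_⟩
  · rw [ha]
    exact le_trans (le_trans (le_add_of_nonneg_right (sq_nonneg _)) hr) (by gcongr)
  have hs := toVec_shift he k
  generalize hg : shift f k = g at hs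
  have hb := congrFun hs 1
  have hc := congrFun hs 2
  have hd' := congrFun hs 3
  have hga : (g.a : ℝ) = t 0 := by rw [← ha, ← hg, shift_a]
  simp [toVec, par] at hb hc hd'
  set n := Real.sqrt ((t 0 ^ 2 + t 1 ^ 2) * t 3 ^ 2) with hndef
  have hn0 : 0 ≤ n := Real.sqrt_nonneg _
  have hn2 : n ^ 2 = (t 0 ^ 2 + t 1 ^ 2) * t 3 ^ 2 := Real.sq_sqrt (by positivity)
  set β := |t 1 * t 3|
  have hβn : β ≤ n := Real.abs_le_sqrt (by nlinarith [sq_nonneg (t 0 * t 3)])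
  have hβ0 : 0 ≤ β := abs_nonneg _
  have hβ2 : β ^ 2 = t 1 ^ 2 * t 3 ^ 2 := by rw [sq_abs]; ring
  have hnM : n ≤ Real.sqrt (T ^ 2 / (2 * Y)) := Real.sqrt_le_sqrt hn
  have hu : 54 * (t 0 ^ 2 * t 3 ^ 2) * n ≤
      216 * t 0 ^ 2 * Y ^ 2 * Real.sqrt (T ^ 2 / (2 * Y)) := by
    have : t 3 ^ 2 ≤ 4 * Y ^ 2 := by nlinarith
    calc 54 * (t 0 ^ 2 * t 3 ^ 2) * n ≤
          54 * (t 0 ^ 2 * (4 * Y ^ 2)) * Real.sqrt (T ^ 2 / (2 * Y)) := by gcongr
      _ = _ := by ring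
  rw [ha]
  cases ε <;> simp at hb hc hd'
  · have hP : (g.b : ℝ) ^ 2 - 3 * t 0 * g.c = β ^ 2 - 3 * (t 0 ^ 2 * t 3 ^ 2) := by
      rw [hβ2, hb, hc]; ring
    refine ⟨?_, ?_⟩
    · rw [hP, abs_le]
      constructor <;> nlinarith [sq_nonneg (t 0 * t 3)]
    have hU : 2 * (g.b : ℝ) ^ 3 - 9 * t 0 * g.b * g.c + 27 * t 0 ^ 2 * g.d =
        -(t 1 * t 3) * (2 * β ^ 2 + 18 * (t 0 ^ 2 * t 3 ^ 2)) := by
      rw [hβ2, hb, hc, hd']; ring
    rw [hP, hU]
    set q := Real.sqrt (β ^ 2 - 3 * (t 0 ^ 2 * t 3 ^ 2))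
    have hqb : q ≤ β := by
      rw [← Real.sqrt_sq hβ0]
      exact Real.sqrt_le_sqrt (by nlinarith [sq_nonneg (t 0 * t 3)])
    have hq : β ^ 2 - q ^ 2 ≤ 3 * (t 0 ^ 2 * t 3 ^ 2) := by
      rcases le_or_gt 0 (β ^ 2 - 3 * (t 0 ^ 2 * t 3 ^ 2)) with hh | hh
      · rw [Real.sq_sqrt hh]; linarith
      · nlinarith [sq_nonneg q]
    obtain ⟨c1, c2⟩ := abs_sub_cube (Real.sqrt_nonneg _) hqb hq
    have hX : 0 ≤ t 0 ^ 2 * t 3 ^ 2 := by positivity
    have hmono := mul_le_mul_of_nonneg_left hβn hX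
    rcases le_total 0 (t 1 * t 3) with hv | hv
    · refine ⟨false, le_trans ?_ hu⟩
      have hb' : t 1 * t 3 = β := (abs_of_nonneg hv).symm
      simp only [Bool.false_eq_true, if_false, hb', abs_le]
      constructor <;> nlinarith
    · refine ⟨true, le_trans ?_ hu⟩
      have hb' : t 1 * t 3 = -β := by rw [show β = -(t 1 * t 3) from abs_of_nonpos hv, neg_neg]
      simp only [if_true, hb', abs_le]
      constructor <;> nlinarith
  · have hP : (g.b : ℝ) ^ 2 - 3 * t 0 * g.c = (3 * n) ^ 2 := by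
      rw [mul_pow, hn2, hb, hc]; ring
    refine ⟨?_, ?_⟩
    · rw [hP, abs_of_nonneg (sq_nonneg _), mul_pow, hn2]
      linarith
    have hU : 2 * (g.b : ℝ) ^ 3 - 9 * t 0 * g.b * g.c + 27 * t 0 ^ 2 * g.d =
        -54 * (t 1 * t 3) * n ^ 2 := by
      rw [hn2, hb, hc, hd']; ring
    rw [hP, hU, Real.sqrt_sq (by positivity)]
    have c : n * (n - β) ≤ t 0 ^ 2 * t 3 ^ 2 := by nlinarith
    rcases le_total 0 (t 1 * t 3) with hv | hv
    · refine ⟨false, le_trans ?_ hu⟩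
      have hb' : t 1 * t 3 = β := (abs_of_nonneg hv).symm
      simp only [Bool.false_eq_true, if_false, hb', abs_le]
      constructor <;> nlinarith
    · refine ⟨true, le_trans ?_ hu⟩
      have hb' : t 1 * t 3 = -β := by rw [show β = -(t 1 * t 3) from abs_of_nonpos hv, neg_neg]
      simp only [if_true, hb', abs_le]
      constructor <;> nlinarith

/-- The admissible `c`. -/
def cSet (M : ℝ) (a b : ℤ) : Finset ℤ := nearInts ((b : ℝ) ^ 2 / (3 * a)) (3 * M / |(a : ℝ)|)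

/-- The admissible `d`. -/
def dSet (L : ℝ) (σ : Bool) (a b c : ℤ) : Finset ℤ :=
  nearInts (((if σ then 1 else -1) * (2 * Real.sqrt ((b : ℝ) ^ 2 - 3 * a * c) ^ 3) -
    2 * (b : ℝ) ^ 3 + 9 * a * b * c) / (27 * (a : ℝ) ^ 2)) (8 * L)

/-- The candidates for the normalised forms. -/
def cands (A M L : ℝ) : Finset CubicForm :=
  ((Finset.Icc (-⌊A⌋) ⌊A⌋).erase 0).biUnion fun a =>
    (Finset.Ico 0 |3 * a|).biUnion fun b => (cSet M a b).biUnion fun c =>
      (dSet L true a b c ∪ dSet L false a b c).image fun d => ⟨a, b, c, d⟩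

theorem card_cands {A M L : ℝ} (hA : 1 ≤ A) (hM : A ≤ M) (hL : 1 ≤ L) :
    ((cands A M L).card : ℝ) ≤ 1428 * (A * M * L) := by
  have hd : ∀ a b c : ℤ, ((dSet L true a b c ∪ dSet L false a b c).card : ℝ) ≤ 34 * L := by
    intro a b c
    have h := Finset.card_union_le (dSet L true a b c) (dSet L false a b c)
    have h' : ((dSet L true a b c ∪ dSet L false a b c).card : ℝ) ≤
        (dSet L true a b c).card + (dSet L false a b c).card := by exact_mod_cast h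
    refine h'.trans ?_
    have h1 : ∀ σ, ((dSet L σ a b c).card : ℝ) ≤ 2 * (8 * L) + 1 := fun σ =>
      card_nearInts _ (by linarith)
    linarith [h1 true, h1 false]
  have hc : ∀ a b : ℤ, ((cSet M a b).card : ℝ) ≤ 6 * M / |(a : ℝ)| + 1 := by
    intro a b
    refine (card_nearInts _ (div_nonneg (by linarith) (abs_nonneg _))).trans (le_of_eq ?_)
    ring
  calc ((cands A M L).card : ℝ)
      ≤ ∑ a ∈ (Finset.Icc (-⌊A⌋) ⌊A⌋).erase 0, ∑ b ∈ Finset.Ico (0 : ℤ) |3 * a|,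
          ∑ c ∈ cSet M a b, ((dSet L true a b c ∪ dSet L false a b c).card : ℝ) := by
        rw [cands]
        refine le_trans (Nat.cast_le.mpr Finset.card_biUnion_le) ?_
        push_cast
        refine Finset.sum_le_sum fun a _ => le_trans (Nat.cast_le.mpr Finset.card_biUnion_le) ?_
        push_cast
        refine Finset.sum_le_sum fun b _ => le_trans (Nat.cast_le.mpr Finset.card_biUnion_le) ?_
        push_cast
        exact Finset.sum_le_sum fun c _ => Nat.cast_le.mpr Finset.card_image_le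
    _ ≤ ∑ a ∈ (Finset.Icc (-⌊A⌋) ⌊A⌋).erase 0, (21 * M) * (34 * L) := by
        refine Finset.sum_le_sum fun a ha => ?_
        rw [Finset.mem_erase, Finset.mem_Icc] at ha
        have ha0 : (a : ℝ) ≠ 0 := Int.cast_ne_zero.mpr ha.1
        have haA : |(a : ℝ)| ≤ A := by
          have e1 : (a : ℝ) ≤ A := (Int.cast_le.mpr ha.2.2).trans (Int.floor_le A)
          have e2 : -A ≤ (a : ℝ) := by
            have := Int.cast_le (R := ℝ).mpr ha.2.1
            push_cast at this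
            linarith [Int.floor_le A]
          exact abs_le.mpr ⟨e2, e1⟩
        calc ∑ b ∈ Finset.Ico (0 : ℤ) |3 * a|,
              ∑ c ∈ cSet M a b, ((dSet L true a b c ∪ dSet L false a b c).card : ℝ)
            ≤ ∑ b ∈ Finset.Ico (0 : ℤ) |3 * a|, (6 * M / |(a : ℝ)| + 1) * (34 * L) := by
              refine Finset.sum_le_sum fun b _ => ?_
              refine (Finset.sum_le_card_nsmul _ _ _ fun c _ => hd a b c).trans ?_
              rw [nsmul_eq_mul]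
              exact mul_le_mul_of_nonneg_right (hc a b) (by linarith)
          _ = (18 * M + 3 * |(a : ℝ)|) * (34 * L) := by
              rw [Finset.sum_const, Int.card_Ico, sub_zero, nsmul_eq_mul,
                ← Int.cast_natCast (R := ℝ), Int.toNat_of_nonneg (abs_nonneg _)]
              push_cast
              rw [abs_mul, abs_of_pos (by norm_num : (0 : ℝ) < 3)]
              field_simp
              ring
          _ ≤ 21 * M * (34 * L) := by gcongr; linarith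
    _ ≤ 2 * A * (21 * M * (34 * L)) := by
        rw [Finset.sum_const, nsmul_eq_mul]
        refine mul_le_mul_of_nonneg_right ?_ (mul_nonneg (by linarith) (by linarith))
        have hF : 0 ≤ ⌊A⌋ := Int.floor_nonneg.mpr (by linarith)
        have hcard : ((Finset.Icc (-⌊A⌋) ⌊A⌋).erase 0).card = (2 * ⌊A⌋).toNat := by
          rw [Finset.card_erase_of_mem (by simp [hF]), Int.card_Icc]
          omega
        rw [hcard, ← Int.cast_natCast (R := ℝ), Int.toNat_of_nonneg (by linarith)]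
        push_cast
        linarith [Int.floor_le A]
    _ = _ := by ring

theorem normShift_mem {ε : Bool} {T Y : ℝ} {f : CubicForm} {t : Fin 4 → ℝ} (h : IsRed ε T f t)
    (hT : 0 ≤ T) (hY : 0 < Y) (h1 : Y ≤ t 3) (h2 : t 3 ≤ 2 * Y) (ha : f.a ≠ 0) :
    normShift f ∈ cands (Real.sqrt (T ^ 2 / (2 * Y ^ 3))) (T ^ 2 / (2 * Y))
      (Y ^ 2 * Real.sqrt (T ^ 2 / (2 * Y))) := by
  obtain ⟨b1, b2, σ, b3⟩ := bounds h hT hY h1 h2 (-(f.b / (3 * f.a)))
  have ea : (normShift f).a = f.a := shift_a _ _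
  have eb := normShift_b f
  change |((normShift f).b : ℝ) ^ 2 - 3 * f.a * (normShift f).c| ≤ _ at b2
  change |(2 * ((normShift f).b : ℝ) ^ 3 - 9 * f.a * (normShift f).b * (normShift f).c +
    27 * (f.a : ℝ) ^ 2 * (normShift f).d) - (if σ then 1 else -1) *
      (2 * Real.sqrt (((normShift f).b : ℝ) ^ 2 - 3 * f.a * (normShift f).c) ^ 3)| ≤ _ at b3
  generalize normShift f = g at ea eb b2 b3 ⊢
  obtain ⟨ga, gb, gc, gd⟩ := g
  simp only at ea eb b2 b3
  subst ea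
  have ha' : (f.a : ℝ) ≠ 0 := Int.cast_ne_zero.mpr ha
  have habs : |(f.a : ℝ)| ≤ Real.sqrt (T ^ 2 / (2 * Y ^ 3)) := Real.abs_le_sqrt b1
  simp only [cands, Finset.mem_biUnion, Finset.mem_image, Finset.mem_erase]
  refine ⟨f.a, ⟨ha, Finset.mem_Icc.mpr ?_⟩, gb, Finset.mem_Ico.mpr ?_, gc, ?_, gd, ?_, rfl⟩
  · have h0 : |f.a| ≤ ⌊Real.sqrt (T ^ 2 / (2 * Y ^ 3))⌋ :=
      Int.le_floor.mpr (by push_cast; exact habs)
    exact abs_le.mp h0
  · rw [eb]
    exact ⟨Int.emod_nonneg _ (by omega), Int.emod_lt_abs _ (by omega)⟩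
  · refine mem_nearInts ?_
    have e : (gc : ℝ) - (gb : ℝ) ^ 2 / (3 * f.a) =
        -((gb : ℝ) ^ 2 - 3 * f.a * gc) / (3 * f.a) := by field_simp; ring
    rw [e, abs_div, abs_neg, abs_mul, abs_of_pos (by norm_num : (0 : ℝ) < 3),
      div_le_div_iff₀ (by positivity) (by positivity)]
    nlinarith [abs_pos.mpr ha', b2]
  · refine Finset.mem_union.mpr (Bool.casesOn σ (fun hh => Or.inr hh) (fun hh => Or.inl hh)
      (mem_nearInts (x := gd) ?_ : gd ∈ dSet (Y ^ 2 * Real.sqrt (T ^ 2 / (2 * Y))) σ f.a gb gc))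
    generalize ((if σ then 1 else -1 : ℝ) *
      (2 * Real.sqrt ((gb : ℝ) ^ 2 - 3 * f.a * gc) ^ 3)) = C at b3 ⊢
    have e : (gd : ℝ) - (C - 2 * (gb : ℝ) ^ 3 + 9 * f.a * gb * gc) / (27 * (f.a : ℝ) ^ 2) =
        (2 * (gb : ℝ) ^ 3 - 9 * f.a * gb * gc + 27 * (f.a : ℝ) ^ 2 * gd - C) /
          (27 * (f.a : ℝ) ^ 2) := by field_simp; ring
    rw [e, abs_div, abs_of_pos (by positivity : (0 : ℝ) < 27 * (f.a : ℝ) ^ 2),
      div_le_iff₀ (by positivity)]
    linarith [b3]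

theorem normShift_injOn {ε : Bool} {T : ℝ} {f g : CubicForm} {t t' : Fin 4 → ℝ}
    (h : IsRed ε T f t) (h' : IsRed ε T g t') (he : normShift f = normShift g) : f = g := by
  obtain ⟨e1, hw, hy, ⟨x0, x1⟩, -, -⟩ := h
  obtain ⟨e2, -, hy', ⟨x0', x1'⟩, -, -⟩ := h'
  set k := -(f.b / (3 * f.a))
  set k' := -(g.b / (3 * g.a))
  have s1 := toVec_shift e1 k
  have s2 := toVec_shift e2 k'
  rw [show shift f k = shift g k' from he, s2] at s1
  have ht := par_injOn ε (by simpa using hy) (by simpa using hy') (by simpa using hw) s1.symm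
  have c0 := congrFun ht 0
  have c1 := congrFun ht 1
  have c2 := congrFun ht 2
  have c3 := congrFun ht 3
  simp at c0 c1 c2 c3
  have hk : k = k' := by
    have h1 : ((k - k' : ℤ) : ℝ) < 1 := by push_cast; linarith
    have h2 : (-1 : ℝ) < ((k - k' : ℤ) : ℝ) := by push_cast; linarith
    rw [← Int.cast_one, Int.cast_lt] at h1
    rw [← Int.cast_one, ← Int.cast_neg, Int.cast_lt] at h2
    omega
  rw [hk, add_left_inj] at c2
  have : toVec f = toVec g := by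
    rw [e1, e2]
    congr 1
    funext i
    fin_cases i <;> assumption
  have q0 := congrFun this 0
  have q1 := congrFun this 1
  have q2 := congrFun this 2
  have q3 := congrFun this 3
  simp [toVec] at q0 q1 q2 q3
  ext <;> assumption

/-- The forms at height between `Y` and `2 Y`. -/
def dyadic (ε : Bool) (T Y : ℝ) : Set CubicForm :=
  {f | f.a ≠ 0 ∧ ∃ t, IsRed ε T f t ∧ Y ≤ t 3 ∧ t 3 ≤ 2 * Y}

theorem dyadic_bound {ε : Bool} {T Y : ℝ} (hT : 0 ≤ T) (hY : 1 ≤ Y) :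
    (dyadic ε T Y).Finite ∧ ((dyadic ε T Y).ncard : ℝ) ≤ 357 * T ^ 4 / Y := by
  rcases (dyadic ε T Y).eq_empty_or_nonempty with he | ⟨f, hfa, t, ht, h1, h2⟩
  · rw [he]
    exact ⟨Set.finite_empty, by simp; positivity⟩
  have hY0 : 0 < Y := by linarith
  have hA : 1 ≤ T ^ 2 / (2 * Y ^ 3) := by
    refine le_trans ?_ (bounds ht hT hY0 h1 h2 0).1
    rw [← sq_abs]
    exact one_le_pow₀ (by exact_mod_cast Int.one_le_abs hfa)
  set A := Real.sqrt (T ^ 2 / (2 * Y ^ 3))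
  set M := T ^ 2 / (2 * Y)
  set L := Y ^ 2 * Real.sqrt M
  have hA2 : A ^ 2 = T ^ 2 / (2 * Y ^ 3) := Real.sq_sqrt (by linarith)
  have hA1 : 1 ≤ A := Real.one_le_sqrt.mpr hA
  have hM0 : 0 ≤ M := by positivity
  have hAM : A ≤ M := by
    refine (pow_le_pow_iff_left₀ (by linarith) hM0 two_ne_zero).mp ?_
    rw [hA2, div_pow, div_le_div_iff₀ (by positivity) (by positivity)]
    have hT2 : 2 * Y ^ 3 ≤ T ^ 2 := by
      rw [le_div_iff₀ (by positivity)] at hA; linarith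
    nlinarith [one_le_pow₀ hY (n := 3), one_le_pow₀ hY (n := 4), mul_le_mul_of_nonneg_left hT2
      (by positivity : 0 ≤ T ^ 2 * Y ^ 3)]
  have hL : 1 ≤ L := one_le_mul_of_one_le_of_one_le (one_le_pow₀ hY)
    (Real.one_le_sqrt.mpr (hA1.trans hAM))
  have hmaps : Set.MapsTo normShift (dyadic ε T Y) (cands A M L : Set CubicForm) :=
    fun g ⟨hga, u, hu, hu1, hu2⟩ => normShift_mem hu hT hY0 hu1 hu2 hga
  have hinj : Set.InjOn normShift (dyadic ε T Y) :=
    fun g ⟨_, u, hu, _⟩ g' ⟨_, u', hu', _⟩ he => normShift_injOn hu hu' he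
  refine ⟨Set.Finite.of_injOn hmaps hinj (Finset.finite_toSet _), ?_⟩
  refine le_trans (le_trans (Nat.cast_le.mpr (Set.ncard_le_ncard_of_injOn normShift hmaps hinj
    (Finset.finite_toSet _))) (le_of_eq_of_le (by rw [Set.ncard_coe_finset])
      (card_cands hA1 hAM hL))) (le_of_eq ?_)
  have e : A * Real.sqrt M = T ^ 2 / (2 * Y ^ 2) := by
    rw [← Real.sqrt_mul (by linarith), ← Real.sqrt_sq (by positivity : 0 ≤ T ^ 2 / (2 * Y ^ 2))]
    congr 1
    simp only [M]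
    field_simp
  calc 1428 * (A * M * L) = 1428 * (A * Real.sqrt M) * M * Y ^ 2 := by simp only [L]; ring
    _ = _ := by rw [e]; simp only [M]; field_simp; ring

/-- The forms at height at least `Y`. -/
def cusp (ε : Bool) (T Y : ℝ) : Set CubicForm :=
  {f | f.a ≠ 0 ∧ ∃ t, IsRed ε T f t ∧ Y ≤ t 3}

/-- **The cusp bound.** -/
theorem cusp_bound (ε : Bool) {T Y : ℝ} (hT : 0 ≤ T) (hY : 1 ≤ Y) :
    (cusp ε T Y).Finite ∧ ((cusp ε T Y).ncard : ℝ) ≤ 714 * T ^ 4 / Y := by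
  have hY0 : 0 < Y := by linarith
  have main : ∀ J : ℕ, ({f | f.a ≠ 0 ∧ ∃ t, IsRed ε T f t ∧ Y ≤ t 3 ∧ t 3 < 2 ^ J * Y}).Finite ∧
      (({f | f.a ≠ 0 ∧ ∃ t, IsRed ε T f t ∧ Y ≤ t 3 ∧ t 3 < 2 ^ J * Y}).ncard : ℝ) ≤
        714 * T ^ 4 / Y * (1 - 1 / 2 ^ J) := by
    intro J
    induction J with
    | zero =>
      have : {f : CubicForm | f.a ≠ 0 ∧
          ∃ t, IsRed ε T f t ∧ Y ≤ t 3 ∧ t 3 < 2 ^ 0 * Y} = ∅ := by
        refine Set.eq_empty_iff_forall_notMem.mpr fun f ⟨_, t, _, h1, h2⟩ => ?_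
        linarith
      rw [this]
      exact ⟨Set.finite_empty, by simp⟩
    | succ J ih =>
      have h2J : (1 : ℝ) ≤ 2 ^ J := one_le_pow₀ (by norm_num)
      obtain ⟨d1, d2⟩ := dyadic_bound (ε := ε) hT (one_le_mul_of_one_le_of_one_le h2J hY)
      have hsub : {f : CubicForm | f.a ≠ 0 ∧
          ∃ t, IsRed ε T f t ∧ Y ≤ t 3 ∧ t 3 < 2 ^ (J + 1) * Y} ⊆
          {f : CubicForm | f.a ≠ 0 ∧ ∃ t, IsRed ε T f t ∧ Y ≤ t 3 ∧ t 3 < 2 ^ J * Y} ∪
            dyadic ε T (2 ^ J * Y) := by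
        rintro f ⟨hfa, t, ht, h1, h2⟩
        rcases lt_or_ge (t 3) (2 ^ J * Y) with h | h
        · exact Or.inl ⟨hfa, t, ht, h1, h⟩
        · exact Or.inr ⟨hfa, t, ht, h, by rw [pow_succ] at h2; linarith⟩
      refine ⟨(ih.1.union d1).subset hsub, ?_⟩
      refine (Nat.cast_le.mpr ((Set.ncard_le_ncard hsub (ih.1.union d1)).trans
        (Set.ncard_union_le _ _))).trans ?_
      push_cast
      refine (add_le_add ih.2 d2).trans (le_of_eq ?_)
      field_simp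
      ring
  obtain ⟨J, hJ⟩ := pow_unbounded_of_one_lt ((T + 1) ^ 2) (by norm_num : (1 : ℝ) < 2)
  have hsub : cusp ε T Y ⊆
      {f | f.a ≠ 0 ∧ ∃ t, IsRed ε T f t ∧ Y ≤ t 3 ∧ t 3 < 2 ^ J * Y} := by
    rintro f ⟨hfa, t, ht, h1⟩
    refine ⟨hfa, t, ht, h1, ?_⟩
    have hy : 0 < t 3 := ht.2.2.1
    obtain ⟨b1, -, -⟩ := bounds ht hT hy le_rfl (by linarith) 0
    have ha : (1 : ℝ) ≤ (f.a : ℝ) ^ 2 := by
      rw [← sq_abs]; exact one_le_pow₀ (by exact_mod_cast Int.one_le_abs hfa)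
    have hy1 : 1 ≤ t 3 := hY.trans h1
    have h3 : 2 * t 3 ^ 3 ≤ T ^ 2 := by
      have := ha.trans b1
      rwa [le_div_iff₀ (by positivity), one_mul] at this
    calc t 3 ≤ t 3 ^ 3 := le_self_pow₀ hy1 (by norm_num)
      _ ≤ (T + 1) ^ 2 := by nlinarith
      _ < 2 ^ J := hJ
      _ ≤ 2 ^ J * Y := le_mul_of_one_le_right (by positivity) hY
  refine ⟨(main J).1.subset hsub, (Nat.cast_le.mpr (Set.ncard_le_ncard hsub (main J).1)).trans
    ((main J).2.trans ?_)⟩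
  have h0 : (0 : ℝ) ≤ 714 * T ^ 4 / Y := by positivity
  have h1 : (0 : ℝ) ≤ 1 / 2 ^ J := by positivity
  nlinarith

end FA.CubicFormCount
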