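import Fermat.Agent.CubicFormCount.Param
import Mathlib.Analysis.Calculus.InverseFunctionTheorem.FDeriv
import Mathlib.Analysis.Calculus.FDeriv.Prod
import Mathlib.Analysis.Calculus.FDeriv.Mul
import Mathlib.Analysis.Calculus.FDeriv.Pow

/-!
# The Jacobian of the coordinates

The absolute Jacobian of `par ε` at `(u, v, x, y)` is `C (u ^ 2 + v ^ 2) y ^ 4`, with `C = 36` for
positive and `C = 4` for negative discriminant; in particular `par ε` is open off `u = v = 0`.
-/

set_option autoImplicit false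

noncomputable section

open Filter Topology

namespace FA.CubicFormCount

/-- The Jacobian matrix. -/
def jmat (ε : Bool) (t : Fin 4 → ℝ) : Matrix (Fin 4) (Fin 4) ℝ :=
  if ε then
    !![1, 0, 0, 0;
      3 * t 2, -3 * t 3, 3 * t 0, -3 * t 1;
      3 * (t 2 ^ 2 - t 3 ^ 2), -6 * t 2 * t 3, 6 * (t 0 * t 2 - t 1 * t 3),
        -6 * (t 0 * t 3 + t 1 * t 2);
      t 2 ^ 3 - 3 * t 2 * t 3 ^ 2, -(3 * t 2 ^ 2 * t 3 - t 3 ^ 3),
        3 * t 0 * (t 2 ^ 2 - t 3 ^ 2) - 6 * t 1 * t 2 * t 3,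
        -6 * t 0 * t 2 * t 3 - t 1 * (3 * t 2 ^ 2 - 3 * t 3 ^ 2)]
  else
    !![1, 0, 0, 0;
      3 * t 2, -t 3, 3 * t 0, -t 1;
      3 * t 2 ^ 2 + t 3 ^ 2, -2 * t 2 * t 3, 6 * t 0 * t 2 - 2 * t 1 * t 3,
        2 * t 0 * t 3 - 2 * t 1 * t 2;
      t 2 * (t 2 ^ 2 + t 3 ^ 2), -t 3 * (t 2 ^ 2 + t 3 ^ 2),
        t 0 * (3 * t 2 ^ 2 + t 3 ^ 2) - 2 * t 1 * t 2 * t 3,
        2 * t 0 * t 2 * t 3 - t 1 * (t 2 ^ 2 + 3 * t 3 ^ 2)]

/-- The derivative. -/
def jac (ε : Bool) (t : Fin 4 → ℝ) : (Fin 4 → ℝ) →L[ℝ] (Fin 4 → ℝ) :=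
  LinearMap.toContinuousLinearMap (Matrix.toLin' (jmat ε t))

theorem det_jac (ε : Bool) (t : Fin 4 → ℝ) :
    |(jac ε t).det| = cst ε * (t 0 ^ 2 + t 1 ^ 2) * t 3 ^ 4 := by
  have h : (jac ε t).det = (jmat ε t).det := LinearMap.det_toLin' _
  rw [h]
  cases ε
  · rw [show (jmat false t).det = -(cst false * (t 0 ^ 2 + t 1 ^ 2) * t 3 ^ 4) by
      simp [jmat, cst, Matrix.det_succ_row_zero, Fin.sum_univ_succ]
      ring, abs_neg, abs_of_nonneg]
    simp [cst]
    positivity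
  · rw [show (jmat true t).det = cst true * (t 0 ^ 2 + t 1 ^ 2) * t 3 ^ 4 by
      simp [jmat, cst, Matrix.det_succ_row_zero, Fin.sum_univ_succ]
      ring, abs_of_nonneg]
    simp [cst]
    positivity

theorem hasStrictFDerivAt_par (ε : Bool) (t : Fin 4 → ℝ) :
    HasStrictFDerivAt (par ε) (jac ε t) t := by
  have hp : ∀ i : Fin 4, HasStrictFDerivAt (fun s : Fin 4 → ℝ => s i)
      (ContinuousLinearMap.proj (R := ℝ) (φ := fun _ : Fin 4 => ℝ) i) t :=
    fun i => hasStrictFDerivAt_apply i t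
  rw [hasStrictFDerivAt_pi']
  have u := hp 0
  have v := hp 1
  have x := hp 2
  have y := hp 3
  intro i
  cases ε
  · fin_cases i
    · simp [par]
      refine u.congr_fderiv ?_
      ext w
      simp [jac, jmat, Matrix.toLin'_apply, dotProduct, Fin.sum_univ_four]
    · simp [par]
      refine (((u.const_mul 3).mul x).sub (v.mul y)).congr_fderiv ?_
      ext w
      simp [jac, jmat, Matrix.toLin'_apply, dotProduct, Fin.sum_univ_four]
      ring
    · simp [par]
      refine ((u.mul (((x.pow 2).const_mul 3).add (y.pow 2))).sub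
        (((v.const_mul 2).mul x).mul y)).congr_fderiv ?_
      ext w
      simp [jac, jmat, Matrix.toLin'_apply, dotProduct, Fin.sum_univ_four]
      ring
    · simp [par]
      refine (((u.mul x).sub (v.mul y)).mul ((x.pow 2).add (y.pow 2))).congr_fderiv ?_
      ext w
      simp [jac, jmat, Matrix.toLin'_apply, dotProduct, Fin.sum_univ_four]
      ring
  · fin_cases i
    · simp [par]
      refine u.congr_fderiv ?_
      ext w
      simp [jac, jmat, Matrix.toLin'_apply, dotProduct, Fin.sum_univ_four]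
    · simp [par]
      refine (((u.mul x).sub (v.mul y)).const_mul 3).congr_fderiv ?_
      ext w
      simp [jac, jmat, Matrix.toLin'_apply, dotProduct, Fin.sum_univ_four]
      ring
    · simp [par]
      refine (((u.mul ((x.pow 2).sub (y.pow 2))).sub
        (((v.const_mul 2).mul x).mul y)).const_mul 3).congr_fderiv ?_
      ext w
      simp [jac, jmat, Matrix.toLin'_apply, dotProduct, Fin.sum_univ_four]
      ring
    · simp [par]
      refine ((u.mul ((x.pow 3).sub ((x.const_mul 3).mul (y.pow 2)))).sub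
        (v.mul ((((x.pow 2).const_mul 3).mul y).sub (y.pow 3)))).congr_fderiv ?_
      ext w
      simp [jac, jmat, Matrix.toLin'_apply, dotProduct, Fin.sum_univ_four]
      ring

theorem isOpen_image_par (ε : Bool) {O : Set (Fin 4 → ℝ)} (hO : IsOpen O)
    (h : ∀ t ∈ O, (t 0 ≠ 0 ∨ t 1 ≠ 0) ∧ t 3 ≠ 0) : IsOpen (par ε '' O) := by
  rw [isOpen_iff_mem_nhds]
  rintro _ ⟨t, ht, rfl⟩
  obtain ⟨hw, hy⟩ := h t ht
  have hd : (jac ε t).det ≠ 0 := by
    have h0 : 0 < t 0 ^ 2 + t 1 ^ 2 := by rcases hw with hw | hw <;> positivity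
    have := cst_pos ε
    refine abs_ne_zero.mp (ne_of_gt ?_)
    rw [det_jac]
    positivity
  have he : HasStrictFDerivAt (par ε)
      (((jac ε t).toContinuousLinearEquivOfDetNeZero hd : (Fin 4 → ℝ) ≃L[ℝ] (Fin 4 → ℝ)) :
        (Fin 4 → ℝ) →L[ℝ] (Fin 4 → ℝ)) t := by
    simpa using hasStrictFDerivAt_par ε t
  rw [← he.map_nhds_eq_of_equiv]
  exact image_mem_map (hO.mem_nhds ht)

end FA.CubicFormCount
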