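import Mathlib.MeasureTheory.Constructions.BorelSpace.Metric
import Mathlib.MeasureTheory.Measure.Lebesgue.EqHaar

/-!
# Lattice points of dilates

The number of points of a translate of `ℤ ^ d` in `x • s`, over `x ^ d`, is asymptotically at most
the volume of the closure of the bounded set `s` and at least that of its interior.
-/

set_option autoImplicit false

noncomputable section

open MeasureTheory Filter Set Metric
open scoped Topology

namespace FA.CubicFormCount

variable {ι : Type*} [Fintype ι]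

/-- The points `k` of `ℤ ^ ι` with `(k + θ) / x ∈ s`. -/
def latPts (x : ℝ) (θ : ι → ℝ) (s : Set (ι → ℝ)) : Set (ι → ℤ) :=
  {k | (fun i => ((k i : ℝ) + θ i) / x) ∈ s}

/-- The cell of the point `k`. -/
def cell (x : ℝ) (θ : ι → ℝ) (k : ι → ℤ) : Set (ι → ℝ) :=
  Set.univ.pi fun i => Set.Ico (((k i : ℝ) + θ i) / x) (((k i : ℝ) + θ i + 1) / x)

theorem mem_cell_iff {x : ℝ} (hx : 0 < x) (θ : ι → ℝ) (k : ι → ℤ) (p : ι → ℝ) :
    p ∈ cell x θ k ↔ ∀ i, k i = ⌊x * p i - θ i⌋ := by
  simp only [cell, Set.mem_univ_pi, Set.mem_Ico, eq_comm (a := k _), Int.floor_eq_iff]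
  refine forall_congr' fun i => ?_
  rw [div_le_iff₀ hx, lt_div_iff₀ hx]
  constructor <;> rintro ⟨h1, h2⟩ <;> constructor <;> linarith

theorem volume_cell {x : ℝ} (hx : 0 < x) (θ : ι → ℝ) (k : ι → ℤ) :
    volume (cell x θ k) = ENNReal.ofReal ((x ^ Fintype.card ι)⁻¹) := by
  rw [cell, Real.volume_pi_Ico, ← ENNReal.ofReal_prod_of_nonneg]
  · congr 1
    rw [Finset.prod_congr rfl (g := fun _ => x⁻¹) fun i _ => by field_simp; ring,
      Finset.prod_const, Finset.card_univ, inv_pow]
  · intro i _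
    rw [sub_nonneg]
    exact div_le_div_of_nonneg_right (by linarith) hx.le

theorem latPts_finite {x : ℝ} (hx : 0 < x) (θ : ι → ℝ) {s : Set (ι → ℝ)}
    (hs : Bornology.IsBounded s) : (latPts x θ s).Finite := by
  obtain ⟨R, hR⟩ := hs.subset_closedBall 0
  refine (Set.Finite.pi fun i : ι =>
    Set.finite_Icc ⌊-(x * R) - θ i⌋ ⌈x * R - θ i⌉).subset fun k hk i _ => ?_
  have h1 := hR hk
  rw [mem_closedBall, dist_zero_right] at h1
  have h2 := (abs_le.mp ((Real.norm_eq_abs _).symm.trans_le
    ((norm_le_pi_norm (fun j => ((k j : ℝ) + θ j) / x) i).trans h1)))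
  rw [le_div_iff₀ hx, div_le_iff₀ hx] at h2
  constructor
  · exact Int.cast_le.mp ((Int.floor_le _).trans (by linarith [h2.1] : _ ≤ (k i : ℝ)))
  · exact Int.cast_le.mp ((by linarith [h2.2] : (k i : ℝ) ≤ x * R - θ i).trans (Int.le_ceil _))

theorem volume_iUnion_cell {x : ℝ} (hx : 0 < x) (θ : ι → ℝ) (S : Finset (ι → ℤ)) :
    volume (⋃ k ∈ S, cell x θ k) =
      ENNReal.ofReal (S.card * (x ^ Fintype.card ι)⁻¹) := by
  rw [measure_biUnion_finset]
  · rw [Finset.sum_congr rfl fun k _ => volume_cell hx θ k, Finset.sum_const, nsmul_eq_mul,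
      ENNReal.ofReal_mul (Nat.cast_nonneg _), ENNReal.ofReal_natCast]
  · intro k _ l _ hkl
    refine Set.disjoint_left.mpr fun p hp hq => hkl ?_
    exact funext fun i => ((mem_cell_iff hx θ k p).mp hp i).trans
      ((mem_cell_iff hx θ l p).mp hq i).symm
  · exact fun k _ => MeasurableSet.univ_pi fun _ => measurableSet_Ico

theorem card_le_volume_cthickening {x : ℝ} (hx : 0 < x) (θ : ι → ℝ) {s : Set (ι → ℝ)}
    (hs : Bornology.IsBounded s) :
    ((latPts x θ s).ncard : ℝ) / x ^ Fintype.card ι ≤ volume.real (cthickening (1 / x) s) := by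
  set S := (latPts_finite hx θ hs).toFinset
  have hsub : (⋃ k ∈ S, cell x θ k) ⊆ cthickening (1 / x) s := by
    refine Set.iUnion₂_subset fun k hk p hp => ?_
    refine mem_cthickening_of_dist_le p _ _ s ((latPts_finite hx θ hs).mem_toFinset.mp hk) ?_
    rw [dist_pi_le_iff (by positivity)]
    intro i
    obtain ⟨h1, h2⟩ := (Set.mem_univ_pi.mp hp) i
    rw [Real.dist_eq, abs_of_nonneg (by linarith)]
    rw [add_div (_ + θ i)] at h2
    linarith
  have h := measure_mono (μ := volume) hsub
  rw [volume_iUnion_cell hx] at h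
  rw [div_eq_mul_inv, Set.ncard_eq_toFinset_card _ (latPts_finite hx θ hs)]
  have hfin : volume (cthickening (1 / x) s) ≠ ⊤ := hs.cthickening.measure_lt_top.ne
  exact (ENNReal.ofReal_le_iff_le_toReal hfin).mp h

theorem volume_le_card {x δ : ℝ} (hx : 0 < x) (hδ : 1 / x ≤ δ) (θ : ι → ℝ) {s : Set (ι → ℝ)}
    (hs : Bornology.IsBounded s) :
    volume.real {p | closedBall p δ ⊆ s} ≤
      ((latPts x θ s).ncard : ℝ) / x ^ Fintype.card ι := by
  set S := (latPts_finite hx θ hs).toFinset
  have hsub : {p | closedBall p δ ⊆ s} ⊆ ⋃ k ∈ S, cell x θ k := by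
    intro p hp
    refine Set.mem_biUnion (x := fun i => ⌊x * p i - θ i⌋) ?_ ((mem_cell_iff hx θ _ p).mpr
      fun i => rfl)
    refine (latPts_finite hx θ hs).mem_toFinset.mpr (hp ?_)
    rw [mem_closedBall, dist_pi_le_iff (le_trans (by positivity) hδ)]
    intro i
    refine le_trans ?_ hδ
    have h1 := Int.floor_le (x * p i - θ i)
    have h2 := Int.lt_floor_add_one (x * p i - θ i)
    rw [Real.dist_eq, abs_le]
    constructor
    · rw [le_sub_iff_add_le, le_div_iff₀ hx]
      field_simp
      linarith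
    · rw [sub_le_iff_le_add, div_le_iff₀ hx]
      field_simp
      linarith
  have h := measure_mono (μ := volume) hsub
  rw [volume_iUnion_cell hx] at h
  rw [div_eq_mul_inv, Set.ncard_eq_toFinset_card _ (latPts_finite hx θ hs)]
  exact (ENNReal.toReal_mono ENNReal.ofReal_ne_top h).trans
    (ENNReal.toReal_ofReal (by positivity)).le

/-- **Upper count.** -/
theorem eventually_latPts_lt (θ : ι → ℝ) {s : Set (ι → ℝ)} (hs : Bornology.IsBounded s) {V : ℝ}
    (hV : volume.real (closure s) < V) :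
    ∀ᶠ x : ℝ in atTop, ((latPts x θ s).ncard : ℝ) / x ^ Fintype.card ι < V := by
  have h := tendsto_measure_cthickening (μ := volume) (s := s)
    ⟨1, one_pos, hs.cthickening.measure_lt_top.ne⟩
  have h' := ((ENNReal.tendsto_toReal hs.closure.measure_lt_top.ne).comp h).comp
    (tendsto_inv_atTop_zero : Tendsto (fun x : ℝ => x⁻¹) atTop (𝓝 0))
  filter_upwards [eventually_gt_atTop (0 : ℝ), h'.eventually_lt_const hV] with x hx hlt
  simp only [Function.comp_apply] at hlt
  refine (card_le_volume_cthickening hx θ hs).trans_lt ?_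
  rwa [one_div]

/-- **Lower count.** -/
theorem eventually_lt_latPts (θ : ι → ℝ) {s : Set (ι → ℝ)} (hs : Bornology.IsBounded s) {V : ℝ}
    (hV : V < volume.real (interior s)) :
    ∀ᶠ x : ℝ in atTop, V < ((latPts x θ s).ncard : ℝ) / x ^ Fintype.card ι := by
  set In : ℕ → Set (ι → ℝ) := fun n => {p | closedBall p (1 / ((n : ℝ) + 1)) ⊆ s}
  have hm : Monotone In := fun a b hab p hp =>
    (closedBall_subset_closedBall (by gcongr)).trans hp
  have hU : (⋃ n, In n) = interior s := by
    ext p
    simp only [Set.mem_iUnion, In, Set.mem_ofPred_eq]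
    constructor
    · rintro ⟨n, hn⟩
      exact mem_interior.mpr ⟨ball p (1 / ((n : ℝ) + 1)), ball_subset_closedBall.trans hn,
        isOpen_ball, mem_ball_self (by positivity)⟩
    · intro hp
      obtain ⟨ε, hε, hb⟩ := nhds_basis_closedBall.mem_iff.mp (mem_interior_iff_mem_nhds.mp hp)
      obtain ⟨n, hn⟩ := exists_nat_one_div_lt hε
      exact ⟨n, (closedBall_subset_closedBall hn.le).trans hb⟩
  have h := tendsto_measure_iUnion_atTop (μ := volume) hm
  rw [hU] at h
  have h' := (ENNReal.tendsto_toReal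
    ((measure_mono interior_subset).trans_lt hs.measure_lt_top).ne).comp h
  obtain ⟨n, hn⟩ := (h'.eventually_const_lt hV).exists
  filter_upwards [eventually_ge_atTop ((n : ℝ) + 1)] with x hx
  have hx0 : 0 < x := lt_of_lt_of_le (by positivity) hx
  exact hn.trans_le (volume_le_card hx0 (by gcongr) θ hs)

end FA.CubicFormCount
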