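import Fermat.Agent.Thue.CubicForms

/-!
# Coordinates for binary cubic forms

A real form of positive discriminant is `Re (w (X + Y z) ^ 3)` and one of negative discriminant is
`Re (w (X + Y z)) |X + Y z| ^ 2`, with `w ≠ 0` and `z` in the upper half plane. The discriminant is
`108 |w| ^ 4 y ^ 6`, resp. `-4 |w| ^ 4 y ^ 6`, and `z` follows `SL₂ (ℤ)`.
-/

set_option autoImplicit false

noncomputable section

open FA.Thue

namespace FA.CubicFormCount

/-- The value of a real cubic form. -/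
def rev (f : Fin 4 → ℝ) (X Y : ℝ) : ℝ :=
  f 0 * X ^ 3 + f 1 * X ^ 2 * Y + f 2 * X * Y ^ 2 + f 3 * Y ^ 3

/-- The discriminant of a real cubic form. -/
def rdisc (f : Fin 4 → ℝ) : ℝ :=
  f 1 ^ 2 * f 2 ^ 2 - 4 * f 0 * f 2 ^ 3 - 4 * f 1 ^ 3 * f 3 - 27 * f 0 ^ 2 * f 3 ^ 2 +
    18 * f 0 * f 1 * f 2 * f 3

/-- The coefficients of an integral form. -/
def toVec (f : CubicForm) : Fin 4 → ℝ := ![f.a, f.b, f.c, f.d]

theorem rdisc_toVec (f : CubicForm) : rdisc (toVec f) = f.disc := by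
  simp [rdisc, toVec, CubicForm.disc]

theorem rev_toVec (f : CubicForm) (X Y : ℝ) : rev (toVec f) X Y = f.eval X Y := by
  simp [rev, toVec, CubicForm.eval]

theorem rev_ext {f g : Fin 4 → ℝ} (h : ∀ X Y, rev f X Y = rev g X Y) : f = g := by
  have h1 := h 1 0
  have h2 := h 0 1
  have h3 := h 1 1
  have h4 := h 1 (-1)
  simp [rev] at h1 h2 h3 h4
  funext i
  fin_cases i <;> simp <;> linarith

/-- The sign of a discriminant. -/
def sgn (ε : Bool) : ℝ := if ε then 1 else -1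

/-- The constant `K` of the discriminant. -/
def kst (ε : Bool) : ℝ := if ε then 108 else 4

/-- The constant `C` of the Jacobian. -/
def cst (ε : Bool) : ℝ := if ε then 36 else 4

theorem kst_pos (ε : Bool) : 0 < kst ε := by cases ε <;> simp [kst]

theorem cst_pos (ε : Bool) : 0 < cst ε := by cases ε <;> simp [cst]

/-- The form with coordinates `(u, v, x, y)`, where `w = u + v i` and `z = x + y i`. -/
def par (ε : Bool) (t : Fin 4 → ℝ) : Fin 4 → ℝ :=
  if ε then
    ![t 0, 3 * (t 0 * t 2 - t 1 * t 3),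
      3 * (t 0 * (t 2 ^ 2 - t 3 ^ 2) - 2 * t 1 * t 2 * t 3),
      t 0 * (t 2 ^ 3 - 3 * t 2 * t 3 ^ 2) - t 1 * (3 * t 2 ^ 2 * t 3 - t 3 ^ 3)]
  else
    ![t 0, 3 * t 0 * t 2 - t 1 * t 3, t 0 * (3 * t 2 ^ 2 + t 3 ^ 2) - 2 * t 1 * t 2 * t 3,
      (t 0 * t 2 - t 1 * t 3) * (t 2 ^ 2 + t 3 ^ 2)]

/-- The form with coordinates `w`, `z`. -/
def cub (ε : Bool) (w z : ℂ) : Fin 4 → ℝ := par ε ![w.re, w.im, z.re, z.im]

/-- Its value, as a function of `T = X + Y z`. -/
def val (ε : Bool) (w T : ℂ) : ℝ :=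
  if ε then (w * T ^ 3).re else (w * T).re * Complex.normSq T

theorem par_zero (ε : Bool) (t : Fin 4 → ℝ) : par ε t 0 = t 0 := by
  cases ε <;> simp [par]

theorem rdisc_par (ε : Bool) (t : Fin 4 → ℝ) :
    rdisc (par ε t) = sgn ε * (kst ε * (t 0 ^ 2 + t 1 ^ 2) ^ 2 * t 3 ^ 6) := by
  cases ε <;> simp [par, rdisc, sgn, kst] <;> ring

theorem rdisc_cub (ε : Bool) (w z : ℂ) :
    rdisc (cub ε w z) = sgn ε * (kst ε * Complex.normSq w ^ 2 * z.im ^ 6) := by
  rw [cub, rdisc_par, Complex.normSq_apply]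
  simp only [Matrix.cons_val_zero, Matrix.cons_val_one, Matrix.cons_val]
  ring

theorem rev_cub (ε : Bool) (w z : ℂ) (X Y : ℝ) :
    rev (cub ε w z) X Y = val ε w (X + Y * z) := by
  cases ε <;> simp [cub, par, rev, val, pow_succ, Complex.normSq_apply] <;> ring

theorem val_mul (ε : Bool) (w j T : ℂ) :
    val ε w (j * T) = val ε (if ε then w * j ^ 3 else w * j * Complex.normSq j) T := by
  cases ε <;> simp only [val, Bool.false_eq_true, if_false, if_true]
  · rw [Complex.normSq_mul, show w * j * (Complex.normSq j : ℂ) * T =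
      ((Complex.normSq j : ℝ) : ℂ) * (w * (j * T)) by ring, Complex.re_ofReal_mul]
    ring
  · rw [mul_pow, mul_assoc]

/-- **Equivariance.** -/
theorem rev_cub_comp (ε : Bool) (w z : ℂ) {p q r s : ℝ} (hj : (p : ℂ) + r * z ≠ 0) (X Y : ℝ) :
    rev (cub ε w z) (p * X + q * Y) (r * X + s * Y) =
      rev (cub ε (if ε then w * ((p : ℂ) + r * z) ^ 3
        else w * ((p : ℂ) + r * z) * Complex.normSq ((p : ℂ) + r * z))
        (((q : ℂ) + s * z) / ((p : ℂ) + r * z))) X Y := by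
  rw [rev_cub, rev_cub, ← val_mul]
  congr 1
  rw [mul_add ((p : ℂ) + r * z), mul_left_comm _ (Y : ℂ), mul_div_cancel₀ _ hj]
  push_cast
  ring

theorem par_scale (ε : Bool) (k : ℝ) (t : Fin 4 → ℝ) :
    par ε ![k * t 0, k * t 1, t 2, t 3] = k • par ε t := by
  cases ε <;> funext i <;> fin_cases i <;> simp [par] <;> ring

/-- The parameters of a non-zero form of non-zero discriminant are unique. -/
theorem par_injOn (ε : Bool) {t t' : Fin 4 → ℝ} (ht : 0 < t 3) (ht' : 0 < t' 3)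
    (hw : t 0 ≠ 0 ∨ t 1 ≠ 0) (h : par ε t = par ε t') : t = t' := by
  have h0 : t 0 = t' 0 := by rw [← par_zero ε t, h, par_zero]
  have hD := congrArg rdisc h
  rw [rdisc_par, rdisc_par] at hD
  have hr : 0 < t 0 ^ 2 + t 1 ^ 2 := by
    rcases hw with hw | hw <;> positivity
  have hk := kst_pos ε
  have hr' : 0 < t' 0 ^ 2 + t' 1 ^ 2 := by
    rcases (by positivity : (0 : ℝ) ≤ t' 0 ^ 2 + t' 1 ^ 2).eq_or_lt with he | he
    · rw [← he] at hD
      have : 0 < kst ε * (t 0 ^ 2 + t 1 ^ 2) ^ 2 * t 3 ^ 6 := by positivity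
      cases ε <;> simp [sgn] at hD <;> rcases hD with (hD | hD) | hD <;> linarith
    · exact he
  have key : t 2 = t' 2 ∧ t 3 = t' 3 := by
    have h1 := congrFun h 1
    have h2 := congrFun h 2
    have h3 := congrFun h 3
    cases ε
    · simp [par] at h1 h2 h3
      set z : ℂ := ⟨t 2, t 3⟩
      set z' : ℂ := ⟨t' 2, t' 3⟩
      have e : ((t 0 : ℂ) * -z + (t 0 * t 2 - t 1 * t 3 : ℝ)) *
          ((-z + z) * (-z + (starRingEnd ℂ) z)) =
          ((t' 0 : ℂ) * -z + (t' 0 * t' 2 - t' 1 * t' 3 : ℝ)) *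
          ((-z + z') * (-z + (starRingEnd ℂ) z')) := by
        have e1 : ∀ a b : ℝ, ∀ W : ℂ, (W + (⟨a, b⟩ : ℂ)) * (W + (starRingEnd ℂ) ⟨a, b⟩) =
            W ^ 2 + ((2 * a : ℝ) : ℂ) * W + ((a ^ 2 + b ^ 2 : ℝ) : ℂ) := by
          intro a b W
          apply Complex.ext <;> simp [pow_two] <;> ring
        rw [e1, e1]
        have g1 : (3 * t 0 * t 2 - t 1 * t 3 : ℂ) = 3 * t' 0 * t' 2 - t' 1 * t' 3 := by
          exact_mod_cast h1
        have g2 : (t 0 * (3 * t 2 ^ 2 + t 3 ^ 2) - 2 * t 1 * t 2 * t 3 : ℂ) =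
            t' 0 * (3 * t' 2 ^ 2 + t' 3 ^ 2) - 2 * t' 1 * t' 2 * t' 3 := by exact_mod_cast h2
        have g3 : ((t 0 * t 2 - t 1 * t 3) * (t 2 ^ 2 + t 3 ^ 2) : ℂ) =
            (t' 0 * t' 2 - t' 1 * t' 3) * (t' 2 ^ 2 + t' 3 ^ 2) := by exact_mod_cast h3
        have g0 : (t 0 : ℂ) = t' 0 := by rw [h0]
        push_cast
        linear_combination (-z) ^ 3 * g0 + (-z) ^ 2 * g1 + (-z) * g2 + g3
      rw [neg_add_cancel, zero_mul, mul_zero] at e
      rcases mul_eq_zero.mp e.symm with e1 | e1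
      · exfalso
        have i1 := congrArg Complex.im e1
        have r1 := congrArg Complex.re e1
        simp [z] at i1 r1
        have u0 : t' 0 = 0 := i1.resolve_right ht.ne'
        rw [u0] at r1 hr'
        simp [ht'.ne'] at r1
        rw [r1] at hr'
        norm_num at hr'
      · rcases mul_eq_zero.mp e1 with e2 | e2
        · have i1 := congrArg Complex.im e2
          have r1 := congrArg Complex.re e2
          simp [z, z'] at i1 r1
          exact ⟨by linarith, by linarith⟩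
        · exfalso
          have i1 := congrArg Complex.im e2
          simp [z, z'] at i1
          linarith
    · simp [par] at h1 h2 h3
      simp [sgn, kst] at hD
      have hP : (t 0 ^ 2 + t 1 ^ 2) * t 3 ^ 2 = (t' 0 ^ 2 + t' 1 ^ 2) * t' 3 ^ 2 := by
        linear_combination (t 0 * t 2 - t 1 * t 3 + (t' 0 * t' 2 - t' 1 * t' 3)) * h1 -
          (t 0 * (t 2 ^ 2 - t 3 ^ 2) - 2 * t 1 * t 2 * t 3) * h0 - t' 0 * h2
      have hy : t 3 = t' 3 := by
        refine (pow_left_inj₀ ht.le ht'.le two_ne_zero).mp ?_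
        refine mul_left_cancel₀ (pow_ne_zero 2 (mul_ne_zero hr.ne' (pow_ne_zero 2 ht.ne'))) ?_
        conv_rhs => rw [hP]
        linear_combination hD / 108
      have hQ : (t 0 ^ 2 + t 1 ^ 2) * t 3 ^ 2 * t 2 = (t' 0 ^ 2 + t' 1 ^ 2) * t' 3 ^ 2 * t' 2 := by
        linear_combination (1 / 2 : ℝ) *
          ((t 0 * (t 2 ^ 2 - t 3 ^ 2) - 2 * t 1 * t 2 * t 3) * h1 +
          (t' 0 * t' 2 - t' 1 * t' 3) * h2 -
          (t 0 * (t 2 ^ 3 - 3 * t 2 * t 3 ^ 2) - t 1 * (3 * t 2 ^ 2 * t 3 - t 3 ^ 3)) * h0 -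
          t' 0 * h3)
      rw [← hP] at hQ
      exact ⟨mul_left_cancel₀ (mul_ne_zero hr.ne' (pow_ne_zero 2 ht.ne')) hQ, hy⟩
  have h1 := congrFun h 1
  obtain ⟨k2, k3⟩ := key
  have k1 : t 1 = t' 1 := by
    cases ε <;> simp [par, h0, k2, k3, ht'.ne'] at h1 <;> exact h1
  funext i
  fin_cases i <;> assumption

/-- An anisotropic integral form has parameters. -/
theorem exists_par {f : CubicForm} (hf : f.Anisotropic) (ε : Bool)
    (hD : 0 < sgn ε * f.disc) : ∃ t : Fin 4 → ℝ, 0 < t 3 ∧ toVec f = par ε t := by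
  cases ε
  · have hD' : f.disc < 0 := by
      simp [sgn] at hD
      exact_mod_cast hD
    obtain ⟨Z, hZ, hroot⟩ := CubicForm.exists_root_im_pos hf hD'
    obtain ⟨hr, hi⟩ := Complex.ext_iff.1 hroot
    simp [CubicForm.eval, pow_succ] at hr hi
    refine ⟨![f.a, (3 * f.a * -Z.re - f.b) / Z.im, -Z.re, Z.im], by simpa using hZ, ?_⟩
    have hc : (f.c : ℝ) = f.a * (Z.im ^ 2 - 3 * Z.re ^ 2) - 2 * f.b * Z.re :=
      mul_right_cancel₀ hZ.ne' (by linear_combination hi)
    funext i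
    fin_cases i <;> simp [toVec, par] <;> field_simp
    · ring
    · rw [hc]; ring
    · rw [hc] at hr
      linear_combination hr
  · have hD' : 0 < f.disc := by
      simp [sgn] at hD
      exact_mod_cast hD
    set P : ℝ := (f.b : ℝ) ^ 2 - 3 * f.a * f.c with hP
    set Q : ℝ := (f.b : ℝ) * f.c - 9 * f.a * f.d with hQ
    set R : ℝ := (f.c : ℝ) ^ 2 - 3 * f.b * f.d with hR
    have hP0 : 0 < P := by rw [hP]; exact_mod_cast CubicForm.hessA_pos hf hD'
    have hS : Real.sqrt (3 * f.disc) ^ 2 = 4 * P * R - Q ^ 2 := by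
      rw [Real.sq_sqrt (by positivity), hP, hQ, hR, CubicForm.disc]
      push_cast
      ring
    set S := Real.sqrt (3 * f.disc) with hSdef
    have hS0 : 0 < S := Real.sqrt_pos.mpr (by positivity)
    refine ⟨![f.a, (f.a * (Q / (2 * P)) - f.b / 3) / (S / (2 * P)), Q / (2 * P), S / (2 * P)],
      by simp; positivity, ?_⟩
    funext i
    fin_cases i <;> simp [toVec, par] <;> field_simp
    · ring
    · rw [hS, hP, hQ, hR]; ring
    · rw [hS, hP, hQ, hR]; ring

end FA.CubicFormCount
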