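import Fermat.Agent.CubicFormCount.Jacobian
import Fermat.Agent.CubicFormCount.Lattice
import Mathlib.Analysis.SpecialFunctions.PolarCoord
import Mathlib.Analysis.SpecialFunctions.Trigonometric.InverseDeriv
import Mathlib.MeasureTheory.Function.Jacobian
import Mathlib.Analysis.SpecialFunctions.Integrals.Basic
import Mathlib.Analysis.Real.Pi.Bounds

/-!
# The volume of the reduced forms

The forms `par ε (u, v, x, y)` with `0 ≤ x ≤ 1/2`, `x ^ 2 + y ^ 2 ≥ 1`, `y ≤ Y` and discriminant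
at most `1` in absolute value fill the volume `π C / (2 K) (π / 6 - 1 / (2 Y))`, both closed and
open.
-/

set_option autoImplicit false

noncomputable section

open MeasureTheory Filter Set
open scoped Topology Real ENNReal

namespace FA.CubicFormCount

/-- The closed reduced parameters up to height `Y` and discriminant one. -/
def parSet (ε : Bool) (Y : ℝ) : Set (Fin 4 → ℝ) :=
  {t | t 2 ∈ Icc 0 (1 / 2) ∧ t 3 ∈ Icc 0 Y ∧ 1 ≤ t 2 ^ 2 + t 3 ^ 2 ∧
    kst ε * (t 0 ^ 2 + t 1 ^ 2) ^ 2 * t 3 ^ 6 ≤ 1}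

/-- The open reduced parameters. -/
def parSetO (ε : Bool) (Y : ℝ) : Set (Fin 4 → ℝ) :=
  {t | (t 2 ∈ Ioo 0 (1 / 2) ∧ t 3 ∈ Ioo 0 Y ∧ 1 < t 2 ^ 2 + t 3 ^ 2 ∧
    kst ε * (t 0 ^ 2 + t 1 ^ 2) ^ 2 * t 3 ^ 6 < 1) ∧ 0 < t 0 ^ 2 + t 1 ^ 2}

/-- The reduced region. -/
def region (ε : Bool) (Y : ℝ) : Set (Fin 4 → ℝ) := par ε '' parSet ε Y

/-- Its open part. -/
def regionO (ε : Bool) (Y : ℝ) : Set (Fin 4 → ℝ) := par ε '' parSetO ε Y

/-- The volume of the region. -/
def regionVol (ε : Bool) (Y : ℝ) : ℝ := π * cst ε / (2 * kst ε) * (π / 6 - 1 / (2 * Y))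

theorem lintegral_disc_lt {ρ : ℝ} (hρ : 0 ≤ ρ) :
    ∫⁻ p : ℝ × ℝ in {p | p.1 ^ 2 + p.2 ^ 2 < ρ}, ENNReal.ofReal (p.1 ^ 2 + p.2 ^ 2) =
      ENNReal.ofReal (π * ρ ^ 2 / 2) := by
  have hm : MeasurableSet {p : ℝ × ℝ | p.1 ^ 2 + p.2 ^ 2 < ρ} :=
    measurableSet_lt (by fun_prop) measurable_const
  rw [← lintegral_indicator hm, ← lintegral_comp_polarCoord_symm]
  have e : ∀ p ∈ polarCoord.target, ENNReal.ofReal p.1 •
      ({p : ℝ × ℝ | p.1 ^ 2 + p.2 ^ 2 < ρ}.indicator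
        (fun q => ENNReal.ofReal (q.1 ^ 2 + q.2 ^ 2))) (polarCoord.symm p) =
      (Iio (Real.sqrt ρ) ×ˢ (univ : Set ℝ)).indicator (fun q => ENNReal.ofReal (q.1 ^ 3)) p := by
    rintro ⟨r, θ⟩ ⟨hr, -⟩
    simp only [Set.mem_Ioi] at hr
    have h1 : (r * Real.cos θ) ^ 2 + (r * Real.sin θ) ^ 2 = r ^ 2 := by
      linear_combination r ^ 2 * Real.cos_sq_add_sin_sq θ
    by_cases h : r < Real.sqrt ρ
    · rw [indicator_of_mem, indicator_of_mem (by simp [h]), polarCoord_symm_apply, smul_eq_mul,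
        h1, ← ENNReal.ofReal_mul hr.le]
      · congr 1; ring
      · simp only [polarCoord_symm_apply, mem_ofPred_eq, h1]
        exact (Real.lt_sqrt hr.le).mp h
    · rw [indicator_of_notMem, indicator_of_notMem (by simp [le_of_not_gt h]), smul_zero]
      simp only [polarCoord_symm_apply, mem_ofPred_eq, h1, not_lt]
      rw [← Real.sq_sqrt hρ]
      exact pow_le_pow_left₀ (Real.sqrt_nonneg _) (le_of_not_gt h) 2
  rw [setLIntegral_congr_fun polarCoord.open_target.measurableSet e,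
    setLIntegral_indicator (measurableSet_Iio.prod MeasurableSet.univ), polarCoord_target,
    Set.prod_inter_prod, Set.univ_inter, Measure.volume_eq_prod,
    setLIntegral_prod _ (by fun_prop)]
  simp only [lintegral_const, Measure.restrict_apply, MeasurableSet.univ, Set.univ_inter,
    Real.volume_Ioo]
  rw [lintegral_mul_const' _ _ ENNReal.ofReal_ne_top, Iio_inter_Ioi,
    setLIntegral_congr Ioo_ae_eq_Icc, ← ofReal_integral_eq_lintegral_ofReal,
    integral_Icc_eq_integral_Ioc, ← intervalIntegral.integral_of_le (Real.sqrt_nonneg ρ),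
    integral_pow, ← ENNReal.ofReal_mul' (by linarith [Real.pi_pos])]
  · congr 1
    rw [show Real.sqrt ρ ^ (3 + 1) = (Real.sqrt ρ ^ 2) ^ 2 by ring, Real.sq_sqrt hρ]
    push_cast
    ring
  · exact (continuous_pow 3).integrableOn_Icc
  · filter_upwards [self_mem_ae_restrict measurableSet_Icc] with x hx
    exact pow_nonneg hx.1 3


theorem lintegral_disc_le {ρ : ℝ} (hρ : 0 ≤ ρ) :
    ∫⁻ p : ℝ × ℝ in {p | p.1 ^ 2 + p.2 ^ 2 ≤ ρ}, ENNReal.ofReal (p.1 ^ 2 + p.2 ^ 2) =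
      ENNReal.ofReal (π * ρ ^ 2 / 2) := by
  refine le_antisymm ?_ (by
    rw [← lintegral_disc_lt hρ]
    exact lintegral_mono_set fun p (hp : p.1 ^ 2 + p.2 ^ 2 < ρ) => hp.le)
  have ht : Tendsto (fun δ : ℝ => ENNReal.ofReal (π * (ρ + δ) ^ 2 / 2)) (𝓝[>] 0)
      (𝓝 (ENNReal.ofReal (π * ρ ^ 2 / 2))) := by
    have hc : Continuous fun δ : ℝ => π * (ρ + δ) ^ 2 / 2 := by fun_prop
    have := ((ENNReal.continuous_ofReal.comp hc).tendsto 0).mono_left
      (nhdsWithin_le_nhds (s := Ioi 0))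
    simpa [Function.comp_def] using this
  refine ge_of_tendsto ht ?_
  filter_upwards [self_mem_nhdsWithin] with δ (hδ : 0 < δ)
  rw [← lintegral_disc_lt (by linarith : 0 ≤ ρ + δ)]
  exact lintegral_mono_set fun p (hp : p.1 ^ 2 + p.2 ^ 2 ≤ ρ) =>
    show p.1 ^ 2 + p.2 ^ 2 < ρ + δ by linarith

/-- The coordinates `((x, y), (u, v))`. -/
def split4 : (ℝ × ℝ) × (ℝ × ℝ) ≃ᵐ (Fin 4 → ℝ) where
  toFun q := ![q.2.1, q.2.2, q.1.1, q.1.2]
  invFun t := ((t 2, t 3), (t 0, t 1))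
  left_inv q := rfl
  right_inv t := by funext i; fin_cases i <;> rfl
  measurable_toFun := measurable_pi_lambda _ fun i => by fin_cases i <;> simp <;> fun_prop
  measurable_invFun := by simp; fun_prop

theorem split4_preserving : MeasurePreserving (split4 : _ → _) volume volume := by
  refine ⟨split4.measurable, ?_⟩
  rw [volume_pi]
  refine (Measure.pi_eq fun s hs => ?_).symm
  rw [Measure.map_apply split4.measurable (MeasurableSet.univ_pi hs)]
  have : (split4 : _ → _) ⁻¹' Set.univ.pi s = (s 2 ×ˢ s 3) ×ˢ (s 0 ×ˢ s 1) := by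
    ext q
    simp [split4, Fin.forall_fin_succ]
    tauto
  rw [this, Measure.volume_eq_prod, Measure.prod_prod, Measure.volume_eq_prod, Measure.prod_prod,
    Measure.prod_prod, Fin.prod_univ_four]
  ring

/-- The Jacobian integral over parameters whose discriminant is cut by `cut`. -/
theorem lintegral_cut (ε : Bool) {A : Set (ℝ × ℝ)} (hA : MeasurableSet A)
    (hpos : ∀ z ∈ A, (0 : ℝ) < z.2) {cut : ℝ → ℝ → Prop} {S : Set (Fin 4 → ℝ)}
    (hS : MeasurableSet S)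
    (hmem : ∀ t, t ∈ S ↔ (t 2, t 3) ∈ A ∧
      cut (t 0 ^ 2 + t 1 ^ 2) (1 / (Real.sqrt (kst ε) * t 3 ^ 3)))
    (hcut : ∀ ρ : ℝ, 0 ≤ ρ →
      ∫⁻ p : ℝ × ℝ in {p | cut (p.1 ^ 2 + p.2 ^ 2) ρ}, ENNReal.ofReal (p.1 ^ 2 + p.2 ^ 2) =
        ENNReal.ofReal (π * ρ ^ 2 / 2)) :
    ∫⁻ t in S, ENNReal.ofReal |(jac ε t).det| =
      ∫⁻ z in A, ENNReal.ofReal (π * cst ε / (2 * kst ε) / z.2 ^ 2) := by
  rw [← split4_preserving.setLIntegral_comp_preimage_emb split4.measurableEmbedding,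
    ← lintegral_indicator (split4.measurable hS), ← lintegral_indicator hA,
    Measure.volume_eq_prod, lintegral_prod]
  · refine lintegral_congr fun z => ?_
    by_cases hz : z ∈ A
    · have hy := hpos z hz
      have hk := kst_pos ε
      have hc := cst_pos ε
      set ρ := 1 / (Real.sqrt (kst ε) * z.2 ^ 3)
      have hρ : 0 ≤ ρ := by positivity
      have e : ∀ w : ℝ × ℝ, ((split4 : _ → _) ⁻¹' S).indicator
          (fun q => ENNReal.ofReal |(jac ε (split4 q)).det|) (z, w) =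
          {p : ℝ × ℝ | cut (p.1 ^ 2 + p.2 ^ 2) ρ}.indicator
            (fun p => ENNReal.ofReal (cst ε * z.2 ^ 4) * ENNReal.ofReal (p.1 ^ 2 + p.2 ^ 2)) w := by
        intro w
        classical
        have hj : ENNReal.ofReal |(jac ε (split4 (z, w))).det| =
            ENNReal.ofReal (cst ε * z.2 ^ 4) * ENNReal.ofReal (w.1 ^ 2 + w.2 ^ 2) := by
          rw [det_jac, ← ENNReal.ofReal_mul (by positivity)]
          congr 1
          simp [split4]
          ring
        have hiff : (z, w) ∈ (split4 : _ → _) ⁻¹' S ↔ cut (w.1 ^ 2 + w.2 ^ 2) ρ := by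
          rw [Set.mem_preimage, hmem]
          simp [split4, hz, ρ]
        simp only [Set.indicator_apply, Set.mem_ofPred_eq, hiff, hj]
      rw [Set.indicator_of_mem hz, lintegral_congr e,
        lintegral_indicator (s := {p : ℝ × ℝ | cut (p.1 ^ 2 + p.2 ^ 2) ρ})]
      · rw [lintegral_const_mul' _ _ ENNReal.ofReal_ne_top, hcut ρ hρ,
          ← ENNReal.ofReal_mul (by positivity)]
        congr 1
        simp only [ρ, div_pow, one_pow, mul_pow, Real.sq_sqrt hk.le]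
        field_simp
      · have : {p : ℝ × ℝ | cut (p.1 ^ 2 + p.2 ^ 2) ρ} =
            (fun w : ℝ × ℝ => (z, w)) ⁻¹' ((split4 : _ → _) ⁻¹' S) := by
          ext w
          simp [split4, hmem, hz, ρ]
        rw [this]
        exact measurable_prodMk_left (split4.measurable hS)
    · rw [Set.indicator_of_notMem hz]
      refine (lintegral_congr fun w => Set.indicator_of_notMem ?_ _).trans lintegral_zero
      simp [split4, hmem, hz]
  · refine (Measurable.indicator ?_ (split4.measurable hS)).aemeasurable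
    simp only [det_jac, split4]
    simp
    fun_prop

theorem lintegral_inv_sq {B a Y : ℝ} (hB : 0 ≤ B) (ha : 0 < a) (hY : a ≤ Y) :
    ∫⁻ y in Icc a Y, ENNReal.ofReal (B / y ^ 2) = ENNReal.ofReal (B * (1 / a - 1 / Y)) := by
  have hne : ∀ y ∈ Icc a Y, y ≠ 0 := fun y hy => (ha.trans_le hy.1).ne'
  have hc : ContinuousOn (fun y => B / y ^ 2) (Icc a Y) :=
    continuousOn_const.div (continuousOn_pow 2) fun y hy => pow_ne_zero 2 (hne y hy)
  rw [← ofReal_integral_eq_lintegral_ofReal hc.integrableOn_Icc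
    (Eventually.of_forall fun y => by positivity)]
  congr 1
  rw [integral_Icc_eq_integral_Ioc, ← intervalIntegral.integral_of_le hY,
    intervalIntegral.integral_eq_sub_of_hasDerivAt (f := fun y => -B * y⁻¹)]
  · ring
  · intro y hy
    rw [Set.uIcc_of_le hY] at hy
    exact ((hasDerivAt_inv (hne y hy)).const_mul (-B)).congr_deriv (by ring)
  · exact hc.intervalIntegrable_of_Icc hY

/-- The truncated half of the fundamental domain. -/
def halfDom (Y : ℝ) : Set (ℝ × ℝ) :=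
  {z | z.1 ∈ Icc 0 (1 / 2) ∧ z.2 ∈ Icc 0 Y ∧ 1 ≤ z.1 ^ 2 + z.2 ^ 2}

/-- Its interior. -/
def halfDomO (Y : ℝ) : Set (ℝ × ℝ) :=
  {z | z.1 ∈ Ioo 0 (1 / 2) ∧ z.2 ∈ Ioo 0 Y ∧ 1 < z.1 ^ 2 + z.2 ^ 2}

theorem sqrt_one_sub_bounds {x : ℝ} (hx : x ∈ Icc (0 : ℝ) (1 / 2)) :
    0 < Real.sqrt (1 - x ^ 2) ∧ Real.sqrt (1 - x ^ 2) ≤ 1 := by
  obtain ⟨h0, h1⟩ := hx
  refine ⟨Real.sqrt_pos.mpr (by nlinarith), ?_⟩
  rw [Real.sqrt_le_one]
  nlinarith

theorem halfDom_pos {Y : ℝ} {z : ℝ × ℝ} (hz : z ∈ halfDom Y) : 0 < z.2 := by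
  obtain ⟨⟨h0, h1⟩, ⟨h2, -⟩, h3⟩ := hz
  rcases h2.eq_or_lt with he | he
  · rw [← he] at h3; nlinarith
  · exact he

theorem measurableSet_halfDom (Y : ℝ) : MeasurableSet (halfDom Y) :=
  ((measurableSet_Icc.preimage measurable_fst).inter
    ((measurableSet_Icc.preimage measurable_snd).inter
      (measurableSet_le (g := fun z : ℝ × ℝ => z.1 ^ 2 + z.2 ^ 2) measurable_const
        (by fun_prop))))

theorem measurableSet_halfDomO (Y : ℝ) : MeasurableSet (halfDomO Y) :=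
  ((measurableSet_Ioo.preimage measurable_fst).inter
    ((measurableSet_Ioo.preimage measurable_snd).inter
      (measurableSet_lt (g := fun z : ℝ × ℝ => z.1 ^ 2 + z.2 ^ 2) measurable_const
        (by fun_prop))))

theorem lintegral_halfDom {B Y : ℝ} (hB : 0 ≤ B) (hY : 1 ≤ Y) :
    (∫⁻ z in halfDom Y, ENNReal.ofReal (B / z.2 ^ 2) =
        ENNReal.ofReal (B * (π / 6 - 1 / (2 * Y)))) ∧
      ∫⁻ z in halfDomO Y, ENNReal.ofReal (B / z.2 ^ 2) =
        ENNReal.ofReal (B * (π / 6 - 1 / (2 * Y))) := by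
  set g : ℝ → ℝ≥0∞ := fun x => ENNReal.ofReal (B * (1 / Real.sqrt (1 - x ^ 2) - 1 / Y)) with hg
  have main : ∫⁻ x in Icc (0 : ℝ) (1 / 2), g x = ENNReal.ofReal (B * (π / 6 - 1 / (2 * Y))) := by
    have hc : ContinuousOn (fun x => B * (1 / Real.sqrt (1 - x ^ 2) - 1 / Y)) (Icc 0 (1 / 2)) :=
      continuousOn_const.mul ((continuousOn_const.div (by fun_prop)
        fun x hx => (sqrt_one_sub_bounds hx).1.ne').sub continuousOn_const)
    rw [hg, ← ofReal_integral_eq_lintegral_ofReal hc.integrableOn_Icc]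
    · congr 1
      rw [integral_Icc_eq_integral_Ioc, ← intervalIntegral.integral_of_le (by norm_num),
        intervalIntegral.integral_eq_sub_of_hasDerivAt
          (f := fun x => B * (Real.arcsin x - x / Y))]
      · rw [← Real.sin_pi_div_six, Real.arcsin_sin (by linarith [Real.pi_pos])
          (by linarith [Real.pi_pos]), Real.sin_pi_div_six, Real.arcsin_zero]
        ring
      · intro x hx
        rw [Set.uIcc_of_le (by norm_num)] at hx
        exact ((Real.hasDerivAt_arcsin (by linarith [hx.1]) (by linarith [hx.2])).sub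
          ((hasDerivAt_id x).div_const Y)).const_mul B
      · exact hc.intervalIntegrable_of_Icc (by norm_num)
    · filter_upwards [self_mem_ae_restrict measurableSet_Icc] with x hx
      obtain ⟨h0, h1⟩ := sqrt_one_sub_bounds hx
      have : 1 / Y ≤ 1 / Real.sqrt (1 - x ^ 2) :=
        one_div_le_one_div_of_le h0 (h1.trans hY)
      positivity [sub_nonneg.mpr this]
  have fib : ∀ (I : Set ℝ) (J : ℝ → Set ℝ) (A : Set (ℝ × ℝ)), MeasurableSet A →
      MeasurableSet I → I ⊆ Icc 0 (1 / 2) → (∀ z, z ∈ A ↔ z.1 ∈ I ∧ z.2 ∈ J z.1) →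
      (∀ x ∈ I, MeasurableSet (J x) ∧ J x =ᵐ[volume] Icc (Real.sqrt (1 - x ^ 2)) Y) →
      ∫⁻ z in A, ENNReal.ofReal (B / z.2 ^ 2) = ∫⁻ x in I, g x := by
    intro I J A hA hI hsub hmem hJ
    rw [← lintegral_indicator hA, Measure.volume_eq_prod,
      lintegral_prod _ ((Measurable.indicator (by fun_prop) hA).aemeasurable),
      ← lintegral_indicator hI]
    refine lintegral_congr fun x => ?_
    by_cases hx : x ∈ I
    · obtain ⟨h0, h1⟩ := sqrt_one_sub_bounds (hsub hx)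
      obtain ⟨hm, hae⟩ := hJ x hx
      rw [Set.indicator_of_mem hx]
      simp only [g]
      rw [← lintegral_inv_sq hB h0 (h1.trans hY), ← setLIntegral_congr hae,
        ← lintegral_indicator hm]
      refine lintegral_congr fun y => ?_
      classical
      simp [Set.indicator_apply, hmem, hx]
    · rw [Set.indicator_of_notMem hx]
      exact (lintegral_congr fun y => Set.indicator_of_notMem (by simp [hmem, hx]) _).trans
        lintegral_zero
  constructor
  · rw [← main]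
    refine fib _ (fun x => Icc (Real.sqrt (1 - x ^ 2)) Y) _ (measurableSet_halfDom Y)
      measurableSet_Icc subset_rfl (fun z => ?_) fun x _ => ⟨measurableSet_Icc, EventuallyEq.rfl⟩
    simp only [halfDom, Set.mem_ofPred_eq, Set.mem_Icc]
    constructor
    · rintro ⟨hx, ⟨h0, h1⟩, h2⟩
      exact ⟨hx, Real.sqrt_le_iff.mpr ⟨h0, by linarith⟩, h1⟩
    · rintro ⟨hx, h0, h1⟩
      exact ⟨hx, ⟨(Real.sqrt_nonneg _).trans h0, h1⟩, by
        linarith [(Real.sqrt_le_iff.mp h0).2]⟩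
  · rw [← main, ← setLIntegral_congr Ioo_ae_eq_Icc]
    refine fib _ (fun x => Ioo (Real.sqrt (1 - x ^ 2)) Y) _ (measurableSet_halfDomO Y)
      measurableSet_Ioo Ioo_subset_Icc_self (fun z => ?_)
      fun x _ => ⟨measurableSet_Ioo, Ioo_ae_eq_Icc⟩
    simp only [halfDomO, Set.mem_ofPred_eq, Set.mem_Ioo]
    constructor
    · rintro ⟨hx, ⟨h0, h1⟩, h2⟩
      exact ⟨hx, (Real.sqrt_lt' h0).mpr (by linarith), h1⟩
    · rintro ⟨hx, h0, h1⟩
      have h0' : 0 < z.2 := (Real.sqrt_nonneg _).trans_lt h0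
      exact ⟨hx, ⟨h0', h1⟩, by linarith [(Real.sqrt_lt' h0').mp h0]⟩

theorem cut_iff (ε : Bool) {r y : ℝ} (hr : 0 ≤ r) (hy : 0 < y) :
    (kst ε * r ^ 2 * y ^ 6 ≤ 1 ↔ r ≤ 1 / (Real.sqrt (kst ε) * y ^ 3)) ∧
      (kst ε * r ^ 2 * y ^ 6 < 1 ↔ r < 1 / (Real.sqrt (kst ε) * y ^ 3)) := by
  have hk := kst_pos ε
  have hs : 0 < Real.sqrt (kst ε) * y ^ 3 := by positivity
  have e : kst ε * r ^ 2 * y ^ 6 = (r * (Real.sqrt (kst ε) * y ^ 3)) ^ 2 := by
    rw [mul_pow, mul_pow, Real.sq_sqrt hk.le]; ring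
  rw [e, le_div_iff₀ hs, lt_div_iff₀ hs, sq_le_one_iff₀ (by positivity),
    sq_lt_one_iff₀ (by positivity)]
  exact ⟨Iff.rfl, Iff.rfl⟩

theorem isCompact_parSet (ε : Bool) (Y : ℝ) : IsCompact (parSet ε Y) := by
  refine Metric.isCompact_of_isClosed_isBounded ?_ ?_
  · exact (isClosed_Icc.preimage (continuous_apply 2)).inter
      ((isClosed_Icc.preimage (continuous_apply 3)).inter
        ((isClosed_le (g := fun t : Fin 4 → ℝ => t 2 ^ 2 + t 3 ^ 2) continuous_const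
            (by fun_prop)).inter
          (isClosed_le (f := fun t : Fin 4 → ℝ => kst ε * (t 0 ^ 2 + t 1 ^ 2) ^ 2 * t 3 ^ 6)
            (by fun_prop) continuous_const)))
  · refine (Metric.isBounded_closedBall (x := (0 : Fin 4 → ℝ)) (r := 2 + |Y|)).subset ?_
    rintro t ⟨⟨hx0, hx1⟩, ⟨hy0, hy1⟩, hn, hd⟩
    rw [Metric.mem_closedBall, dist_zero_right, pi_norm_le_iff_of_nonneg (by positivity)]
    have hy2 : 3 / 4 ≤ t 3 ^ 2 := by nlinarith
    have hy6 : (27 : ℝ) / 64 ≤ t 3 ^ 6 := by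
      have := pow_le_pow_left₀ (by norm_num) hy2 3
      rw [← pow_mul] at this
      norm_num at this ⊢
      exact this
    have hk : 4 ≤ kst ε := by cases ε <;> norm_num [kst]
    have hb : (t 0 ^ 2 + t 1 ^ 2) ^ 2 ≤ 1 := by
      have h1 : (1 : ℝ) ≤ kst ε * t 3 ^ 6 := by nlinarith
      nlinarith [sq_nonneg (t 0 ^ 2 + t 1 ^ 2)]
    have hb' : t 0 ^ 2 + t 1 ^ 2 ≤ 1 := by nlinarith
    intro i
    rw [Real.norm_eq_abs, abs_le]
    have := abs_nonneg Y
    have := le_abs_self Y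
    fin_cases i <;> simp <;> constructor <;> nlinarith [sq_nonneg (t 0), sq_nonneg (t 1)]

theorem isOpen_parSetO (ε : Bool) (Y : ℝ) : IsOpen (parSetO ε Y) :=
  ((isOpen_Ioo.preimage (continuous_apply 2)).inter
    ((isOpen_Ioo.preimage (continuous_apply 3)).inter
      ((isOpen_lt (g := fun t : Fin 4 → ℝ => t 2 ^ 2 + t 3 ^ 2) continuous_const
          (by fun_prop)).inter
        (isOpen_lt (f := fun t : Fin 4 → ℝ => kst ε * (t 0 ^ 2 + t 1 ^ 2) ^ 2 * t 3 ^ 6)
          (by fun_prop) continuous_const)))).inter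
    (isOpen_lt (g := fun t : Fin 4 → ℝ => t 0 ^ 2 + t 1 ^ 2) continuous_const (by fun_prop))

theorem isCompact_region (ε : Bool) (Y : ℝ) : IsCompact (region ε Y) :=
  (isCompact_parSet ε Y).image
    (continuous_iff_continuousAt.mpr fun t => (hasStrictFDerivAt_par ε t).continuousAt)

theorem isOpen_regionO (ε : Bool) (Y : ℝ) : IsOpen (regionO ε Y) :=
  isOpen_image_par ε (isOpen_parSetO ε Y) fun t ht => ⟨by
    by_contra h
    push Not at h
    simpa [h.1, h.2] using ht.2, ht.1.2.1.1.ne'⟩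

theorem regionO_subset (ε : Bool) (Y : ℝ) : regionO ε Y ⊆ region ε Y :=
  Set.image_mono fun _ ⟨⟨h2, h3, hn, hd⟩, _⟩ =>
    ⟨Ioo_subset_Icc_self h2, Ioo_subset_Icc_self h3, hn.le, hd.le⟩

theorem regionVol_nonneg (ε : Bool) {Y : ℝ} (hY : 1 ≤ Y) : 0 ≤ regionVol ε Y := by
  have := cst_pos ε
  have := kst_pos ε
  have h : 1 / (2 * Y) ≤ π / 6 := by
    rw [div_le_iff₀ (by positivity)]
    nlinarith [Real.pi_gt_three]
  rw [regionVol]
  exact mul_nonneg (by positivity) (sub_nonneg.mpr h)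

theorem volume_region_le (ε : Bool) {Y : ℝ} (hY : 1 ≤ Y) :
    volume.real (closure (region ε Y)) ≤ regionVol ε Y := by
  rw [(isCompact_region ε Y).isClosed.closure_eq]
  refine ENNReal.toReal_le_of_le_ofReal (regionVol_nonneg ε hY) ?_
  refine (addHaar_image_le_lintegral_abs_det_fderiv volume (isCompact_parSet ε Y).measurableSet
    (f' := jac ε) fun t _ => (hasStrictFDerivAt_par ε t).hasFDerivAt.hasFDerivWithinAt).trans ?_
  rw [lintegral_cut ε (measurableSet_halfDom Y) (fun z => halfDom_pos)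
    (cut := fun r ρ => r ≤ ρ) (isCompact_parSet ε Y).measurableSet ?_
    fun ρ hρ => lintegral_disc_le hρ, (lintegral_halfDom (by
      have := cst_pos ε; have := kst_pos ε; positivity) hY).1]
  · rfl
  · intro t
    constructor
    · rintro ⟨h2, h3, hn, hd⟩
      exact ⟨⟨h2, h3, hn⟩, (cut_iff ε (by positivity) (halfDom_pos
        (show (t 2, t 3) ∈ halfDom Y from ⟨h2, h3, hn⟩))).1.mp hd⟩
    · rintro ⟨⟨h2, h3, hn⟩, hd⟩
      exact ⟨h2, h3, hn, (cut_iff ε (by positivity) (halfDom_pos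
        (show (t 2, t 3) ∈ halfDom Y from ⟨h2, h3, hn⟩))).1.mpr hd⟩

theorem volume_regionO_ge (ε : Bool) {Y : ℝ} (hY : 1 ≤ Y) :
    regionVol ε Y ≤ volume.real (interior (regionO ε Y)) := by
  rw [(isOpen_regionO ε Y).interior_eq, measureReal_def]
  set S : Set (Fin 4 → ℝ) := {t | (t 2, t 3) ∈ halfDomO Y ∧
    t 0 ^ 2 + t 1 ^ 2 < 1 / (Real.sqrt (kst ε) * t 3 ^ 3)}
  have hS : MeasurableSet S :=
    ((measurableSet_halfDomO Y).preimage (by fun_prop)).inter
      (measurableSet_lt (f := fun t : Fin 4 → ℝ => t 0 ^ 2 + t 1 ^ 2)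
        (g := fun t : Fin 4 → ℝ => 1 / (Real.sqrt (kst ε) * t 3 ^ 3)) (by fun_prop) (by fun_prop))
  have key : parSetO ε Y = S ∩ {t | 0 < t 0 ^ 2 + t 1 ^ 2} := by
    ext t
    constructor
    · rintro ⟨⟨h2, h3, hn, hd⟩, hp⟩
      exact ⟨⟨⟨h2, h3, hn⟩, (cut_iff ε (by positivity) h3.1).2.mp hd⟩, hp⟩
    · rintro ⟨⟨⟨h2, h3, hn⟩, hd⟩, hp⟩
      exact ⟨⟨h2, h3, hn, (cut_iff ε (by positivity) h3.1).2.mpr hd⟩, hp⟩
  rw [regionO, ← lintegral_abs_det_fderiv_eq_addHaar_image volume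
    (isOpen_parSetO ε Y).measurableSet
    (fun t _ => (hasStrictFDerivAt_par ε t).hasFDerivAt.hasFDerivWithinAt)
    fun t ht t' ht' h => par_injOn ε ht.1.2.1.1 ht'.1.2.1.1 (by
      by_contra hc
      push Not at hc
      simpa [hc.1, hc.2] using ht.2) h, key]
  have e : ∫⁻ t in S ∩ {t | 0 < t 0 ^ 2 + t 1 ^ 2}, ENNReal.ofReal |(jac ε t).det| =
      ∫⁻ t in S, ENNReal.ofReal |(jac ε t).det| := by
    have hm : MeasurableSet {t : Fin 4 → ℝ | 0 < t 0 ^ 2 + t 1 ^ 2} :=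
      measurableSet_lt measurable_const (by fun_prop)
    rw [← lintegral_inter_add_sdiff (μ := volume) _ S hm]
    symm
    convert add_zero _
    rw [setLIntegral_congr_fun (g := fun _ => 0) (hS.diff hm), lintegral_zero]
    intro t ht
    have h0 : t 0 ^ 2 + t 1 ^ 2 ≤ 0 := not_lt.mp ht.2
    simp only [det_jac]
    rw [ENNReal.ofReal_eq_zero, le_antisymm h0 (by positivity), mul_zero, zero_mul]
  rw [e, lintegral_cut ε (measurableSet_halfDomO Y) (fun z hz => hz.2.1.1)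
    (cut := fun r ρ => r < ρ) hS (fun t => Iff.rfl) fun ρ hρ => lintegral_disc_lt hρ,
    (lintegral_halfDom (by have := cst_pos ε; have := kst_pos ε; positivity) hY).2,
    ENNReal.toReal_ofReal]
  · rfl
  · exact regionVol_nonneg ε hY

end FA.CubicFormCount
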